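import Fermat.Agent.GaloisImage.IndexTwo
import Fermat.Agent.ECTorsion.DetCyclotomic
import Fermat.Agent.ECTorsion.Galois
import Fermat.Agent.ECReduction.GlobalInertia
import Fermat.Prelude.Def_GaloisRep_ComplexConjugation
import Fermat.Prelude.Def_FLTPrelim_ModularRep

/-!
# The mod `p` representation of an integral Weierstrass curve

`matRep` gives the matrices on the `p`-torsion; its determinant is the cyclotomic character and
`-1` on complex conjugation.  Irreducibility means no stable line, also over extensions, and an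
open subgroup containing all inertia is everything.
-/

set_option autoImplicit false

open Matrix WeierstrassCurve WeierstrassCurve.Affine WeierstrassCurve.Affine.Point
open scoped WeierstrassCurve.Affine

namespace FLTAgent.GaloisImage

open FLTAgent.Density (Qbar GalQ)

/-- The `p`-torsion over `ℚbar`. -/
noncomputable abbrev Tors (W : WeierstrassCurve ℤ) (p : ℕ) :=
  Submodule.torsionBy ℤ ((W.map (Int.castRingHom ℚ)).toAffine⁄(AlgebraicClosure ℚ)).Point p

/-- The matrices of the Galois action in a basis of the `p`-torsion. -/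
noncomputable def matRep (W : WeierstrassCurve ℤ) (p : ℕ)
    (b : Module.Basis (Fin 2) (ZMod p) (Tors W p)) :
    (AlgebraicClosure ℚ ≃ₐ[ℚ] AlgebraicClosure ℚ) →* Matrix (Fin 2) (Fin 2) (ZMod p) where
  toFun σ := LinearMap.toMatrix b b (galoisRepModuleEnd ℚ (W.map (Int.castRingHom ℚ)).toAffine p σ)
  map_one' := by rw [map_one, LinearMap.toMatrix_one]
  map_mul' σ τ := by rw [map_mul, LinearMap.toMatrix_mul]

variable {W : WeierstrassCurve ℤ} {p : ℕ}

/-- An integral equation with nonzero discriminant defines an elliptic curve over `ℚ̄`. -/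
theorem isElliptic_qbar (hΔ : W.Δ ≠ 0) :
    ((W.map (Int.castRingHom ℚ)).toAffine⁄(AlgebraicClosure ℚ)).IsElliptic := ⟨by
  change IsUnit ((W.map (Int.castRingHom ℚ)).map (algebraMap ℚ (AlgebraicClosure ℚ))).Δ
  rw [WeierstrassCurve.map_Δ, WeierstrassCurve.map_Δ, isUnit_iff_ne_zero]
  simpa using hΔ⟩

/-- The `p`-torsion has a basis with two elements. -/
theorem exists_basis [Fact p.Prime] (hΔ : W.Δ ≠ 0) :
    Nonempty (Module.Basis (Fin 2) (ZMod p) (Tors W p)) :=
  have := isElliptic_qbar hΔ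
  FLTAgent.ECTorsion.nonempty_basis_torsionBy (W.map (Int.castRingHom ℚ)).toAffine
    (Nat.cast_ne_zero.mpr (Fact.out : p.Prime).ne_zero)

variable [Fact p.Prime] (b : Module.Basis (Fin 2) (ZMod p) (Tors W p))

/-- The matrix of an automorphism acts on coordinates as the automorphism on torsion. -/
theorem matRep_mulVec (σ : AlgebraicClosure ℚ ≃ₐ[ℚ] AlgebraicClosure ℚ) (z : Tors W p) :
    matRep W p b σ *ᵥ ⇑(b.repr z) = ⇑(b.repr (σ • z)) :=
  LinearMap.toMatrix_mulVec_repr b b _ z

/-- A field automorphism acts on `μ_p` through the determinant. -/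
theorem apply_eq_pow_det (hΔ : W.Δ ≠ 0) (σ : AlgebraicClosure ℚ ≃ₐ[ℚ] AlgebraicClosure ℚ)
    {ζ : AlgebraicClosure ℚ} (hζ : ζ ^ p = 1) : σ ζ = ζ ^ (matRep W p b σ).det.val := by
  have := isElliptic_qbar hΔ
  have h := FLTAgent.ECTorsion.algEquiv_apply_eq_pow_galoisRepDet (S := ℚ)
    (W.map (Int.castRingHom ℚ)).toAffine (Nat.cast_ne_zero.mpr (Fact.out : p.Prime).ne_zero) σ hζ
  rw [galoisRepDet_apply, LinearEquiv.coe_det] at h
  change σ ζ = ζ ^ (LinearMap.toMatrix b b
    (galoisRepModuleEnd ℚ (W.map (Int.castRingHom ℚ)).toAffine p σ)).det.val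
  rw [LinearMap.det_toMatrix]
  exact h

/-- The determinant is determined by the action on a primitive `p`-th root of unity. -/
theorem det_eq_of_apply_eq_pow (hΔ : W.Δ ≠ 0) {σ : AlgebraicClosure ℚ ≃ₐ[ℚ] AlgebraicClosure ℚ}
    {m : ℕ} (h : ∀ ζ : AlgebraicClosure ℚ, ζ ^ p = 1 → σ ζ = ζ ^ m) :
    (matRep W p b σ).det = (m : ZMod p) := by
  have hp0 := (Fact.out : p.Prime).ne_zero
  have : NeZero (p : AlgebraicClosure ℚ) := ⟨Nat.cast_ne_zero.mpr hp0⟩
  obtain ⟨ζ, hζ⟩ := HasEnoughRootsOfUnity.exists_primitiveRoot (AlgebraicClosure ℚ) p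
  have e := (apply_eq_pow_det b hΔ σ hζ.pow_eq_one).symm.trans (h ζ hζ.pow_eq_one)
  rw [(hζ.isOfFinOrder hp0).pow_eq_pow_iff_modEq, ← hζ.eq_orderOf,
    ← ZMod.natCast_eq_natCast_iff, ZMod.natCast_zmod_val] at e
  exact e

/-- A nontrivial involution inverts the roots of unity of odd order. -/
theorem involution_apply_rootOfUnity {c : AlgebraicClosure ℚ ≃ₐ[ℚ] AlgebraicClosure ℚ}
    (hc : c * c = 1) (hc1 : c ≠ 1) {n : ℕ} (hn : Odd n) {ζ : AlgebraicClosure ℚ}
    (hζ : ζ ^ n = 1) : c ζ = ζ⁻¹ := by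
  have hcc : ∀ x, c (c x) = x := fun x => by
    rw [← AlgEquiv.mul_apply, hc, AlgEquiv.one_apply]
  -- `c` does not fix a square root of `-1`
  obtain ⟨i, hi⟩ := IsAlgClosed.exists_pow_nat_eq (-1 : AlgebraicClosure ℚ) (n := 2) two_pos
  have hci : c i = -i := by
    have h2 : c i * c i = i * i := by
      rw [← map_mul, ← sq, hi, map_neg, map_one]
    refine (mul_self_eq_mul_self_iff.mp h2).resolve_left fun hfix => ?_
    obtain ⟨x, hx⟩ : ∃ x, c x ≠ x := by
      by_contra h
      push Not at h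
      exact hc1 (AlgEquiv.ext h)
    set a := x - c x with ha
    have hca : c a = -a := by rw [ha, map_sub, hcc]; ring
    have ha0 : a ≠ 0 := sub_ne_zero.mpr (Ne.symm hx)
    obtain ⟨w, hw⟩ := IsAlgClosed.exists_pow_nat_eq a (n := 2) two_pos
    have h3 : c w * c w = (i * w) * (i * w) := by
      rw [← map_mul, ← sq, hw, hca, mul_mul_mul_comm, ← sq, ← sq, hi, hw]; ring
    have hw0 : w ≠ 0 := fun h => ha0 (by rw [← hw, h]; ring)
    have h4 : c (c w) = i * i * w := by
      rcases mul_self_eq_mul_self_iff.mp h3 with e | e <;>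
        simp only [e, map_mul, map_neg, hfix] <;> ring
    rw [hcc, ← sq, hi] at h4
    exact hw0 (by linear_combination h4 / 2)
  -- in the fixed field squares are closed under sums, and `-1` is not a square
  have norm : ∀ s t : AlgebraicClosure ℚ, c s = s → c t = t →
      ∃ u, c u = u ∧ u * u = s * s + t * t := by
    intro s t hs ht
    obtain ⟨z, hz⟩ := IsAlgClosed.exists_pow_nat_eq (s + i * t) (n := 2) two_pos
    refine ⟨z * c z, by rw [map_mul, hcc, mul_comm], ?_⟩
    calc z * c z * (z * c z) = z ^ 2 * c (z ^ 2) := by rw [map_pow]; ring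
      _ = (s + i * t) * (s - i * t) := by rw [hz, map_add, map_mul, hci, hs, ht]; ring
      _ = s * s + t * t := by linear_combination (-(t * t)) * hi
  -- the real part `ζ + cζ`: `ζ * cζ` is a root of unity of odd order fixed by `c`
  obtain ⟨m, rfl⟩ := hn
  set η := ζ * c ζ with hη
  have hηc : c η = η := by rw [hη, map_mul, hcc, mul_comm]
  have hηn : η ^ (2 * m + 1) = 1 := by rw [hη, mul_pow, ← map_pow, hζ, map_one, one_mul]
  suffices hη1 : η = 1 by
    exact eq_inv_of_mul_eq_one_right hη1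
  by_contra hne
  have hgeom : ∑ j ∈ Finset.range (2 * m + 1), η ^ j = 0 := by
    have := geom_sum_mul η (2 * m + 1)
    rw [hηn, sub_self] at this
    exact (mul_eq_zero.mp this).resolve_right (sub_ne_zero.mpr hne)
  -- every power of `η` is a square in the fixed field
  have hsq : ∀ j, ∃ u, c u = u ∧ u * u = η ^ j := fun j => ⟨(η ^ (m + 1)) ^ j, by
    rw [map_pow, map_pow, hηc], by
    rw [← mul_pow, ← pow_add, show m + 1 + (m + 1) = 2 * m + 1 + 1 by ring, pow_succ, hηn, one_mul]⟩
  have hsum : ∀ N : ℕ, ∃ u, c u = u ∧ u * u = ∑ j ∈ Finset.range N, η ^ (j + 1) := by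
    intro N
    induction N with
    | zero => exact ⟨0, map_zero c, by simp⟩
    | succ N ih =>
      obtain ⟨u, hu, hu2⟩ := ih
      obtain ⟨w, hw, hw2⟩ := hsq (N + 1)
      obtain ⟨r, hr, hr2⟩ := norm u w hu hw
      exact ⟨r, hr, by rw [hr2, hu2, hw2, Finset.sum_range_succ]⟩
  obtain ⟨u, hu, hu2⟩ := hsum (2 * m)
  rw [Finset.sum_range_succ', pow_zero, ← hu2] at hgeom
  have h5 : u * u = i * i := by rw [← sq i, hi]; linear_combination hgeom
  have hi0 : i ≠ 0 := fun h => by rw [h] at hi; norm_num at hi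
  rcases mul_self_eq_mul_self_iff.mp h5 with e | e <;> rw [e] at hu
  · exact hi0 (by linear_combination (hu.symm.trans hci) / 2)
  · rw [map_neg, hci, neg_neg] at hu
    exact hi0 (by linear_combination hu / 2)

theorem zmod_two_cases : ∀ d : ZMod 2, d ≠ 0 → d = -1 := by decide

/-- Oddness. -/
theorem det_matRep_involution (hΔ : W.Δ ≠ 0) {c : AlgebraicClosure ℚ ≃ₐ[ℚ] AlgebraicClosure ℚ}
    (hc : c * c = 1) (hc1 : c ≠ 1) : (matRep W p b c).det = -1 := by
  have hp := (Fact.out : p.Prime)
  rcases hp.eq_two_or_odd' with rfl | hodd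
  · have hne : (matRep W 2 b c).det ≠ 0 :=
      ((isUnit_iff_isUnit_det _).mp (isUnit_image (matRep W 2 b) c)).ne_zero
    exact zmod_two_cases _ hne
  · rw [det_eq_of_apply_eq_pow b hΔ (m := p - 1) fun ζ hζ => ?_, Nat.cast_sub hp.one_le,
      ZMod.natCast_self, Nat.cast_one, zero_sub]
    rw [involution_apply_rootOfUnity hc hc1 hodd hζ]
    refine inv_eq_of_mul_eq_one_right ?_
    rw [← pow_succ', Nat.sub_add_cancel hp.one_le, hζ]

omit [Fact p.Prime] in
/-- Complex conjugation is not the identity. -/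
theorem complexConjugation_ne_one : complexConjugation ≠ 1 := by
  intro h
  obtain ⟨i, hi⟩ := IsAlgClosed.exists_pow_nat_eq (-1 : AlgebraicClosure ℚ) (n := 2) two_pos
  have h1 := complexEmbedding_complexConjugation i
  rw [h, AlgEquiv.one_apply] at h1
  have him : (complexEmbedding i).im = 0 := Complex.conj_eq_iff_im.mp h1.symm
  have hre := congrArg Complex.re (congrArg complexEmbedding hi)
  simp [sq, him] at hre
  nlinarith

/-- Irreducibility, in matrix form. -/
theorem noStableLine_matRep (hirr : W.ModRepIsIrreducible p) : NoStableLine (matRep W p b) := by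
  rintro w ⟨hw, hst⟩
  set z : Tors W p := b.equivFun.symm w with hz
  have hzw : ⇑(b.repr z) = w := b.equivFun.apply_symm_apply w
  have hz0 : z ≠ 0 := fun h => hw (by rw [← hzw, h, _root_.map_zero, Finsupp.coe_zero])
  have hstab : IsGaloisStable ℚ (Submodule.span (ZMod p) {z}) := by
    intro σ x hx
    obtain ⟨a, rfl⟩ := Submodule.mem_span_singleton.mp hx
    obtain ⟨c, hc⟩ := hst σ (Subgroup.mem_top σ)
    rw [← hzw, matRep_mulVec] at hc
    have hsz : σ • z = c • z := b.repr.injective (by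
      ext j
      rw [map_smul b.repr c z]
      exact congrFun hc j)
    rw [smul_comm, hsz]
    exact Submodule.smul_mem _ _ (Submodule.smul_mem _ _ (Submodule.mem_span_singleton_self z))
  rcases hirr.2 (Submodule.span (ZMod p) {z}) hstab with h | h
  · exact hz0 (Submodule.span_singleton_eq_bot.mp h)
  · have := congrArg (fun N : Submodule (ZMod p) (Tors W p) => Module.finrank (ZMod p) N) h
    simp [finrank_span_singleton hz0, finrank_top, Module.finrank_eq_card_basis b] at this

/-- Absolute irreducibility. -/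
theorem noStableLine_extRep_matRep (hΔ : W.Δ ≠ 0) (hp : p ≠ 2) (hirr : W.ModRepIsIrreducible p)
    (K : Type) [Field K] [Algebra (ZMod p) K] : NoStableLine (extRep K (matRep W p b)) :=
  noStableLine_extRep hp (noStableLine_matRep b hirr) (c := complexConjugation)
    (by rw [← map_mul, complexConjugation_mul_self, map_one])
    (det_matRep_involution b hΔ complexConjugation_mul_self complexConjugation_ne_one)

theorem isOpen_of_matRep_ker_le (hΔ : W.Δ ≠ 0)
    {H : Subgroup (AlgebraicClosure ℚ ≃ₐ[ℚ] AlgebraicClosure ℚ)}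
    (hH : ∀ g, matRep W p b g = 1 → g ∈ H) :
    IsOpen (H : Set (AlgebraicClosure ℚ ≃ₐ[ℚ] AlgebraicClosure ℚ)) := by
  have := isElliptic_qbar hΔ
  have := FLTAgent.ECTorsion.finite_torsionBy (W.map (Int.castRingHom ℚ)).toAffine
    (K := AlgebraicClosure ℚ) (Nat.cast_ne_zero.mpr (Fact.out : p.Prime).ne_zero)
  refine Subgroup.isOpen_mono (fun σ hσ => hH σ ?_)
    (FLTAgent.ECTorsion.isOpen_ker_galoisRepModuleEnd (S := ℚ) (K := AlgebraicClosure ℚ)
      (W.map (Int.castRingHom ℚ)).toAffine (n := p))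
  change LinearMap.toMatrix b b _ = 1
  rw [MonoidHom.mem_ker.mp hσ, LinearMap.toMatrix_one]

/-- The inertia groups generate. -/
theorem eq_top_of_inertia (hΔ : W.Δ ≠ 0)
    {H : Subgroup (AlgebraicClosure ℚ ≃ₐ[ℚ] AlgebraicClosure ℚ)}
    (hH : ∀ g, matRep W p b g = 1 → g ∈ H)
    (h : ∀ q : ℕ, q.Prime → ∀ A : ValuationSubring (AlgebraicClosure ℚ), A.LiesOverPrime q →
      A.inertiaSubgroupIn ℚ ≤ H) : H = ⊤ :=
  FLTAgent.ECReduction.eq_top_of_inertia_le H (isOpen_of_matRep_ker_le b hΔ hH) h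

end FLTAgent.GaloisImage
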