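import Fermat.Agent.ECTorsion.Torsion
import Fermat.Agent.ECReduction.Val

/-!
# Non-integral roots, and division polynomials of nodal curves

`val_coeff_lt_coeff_zero`: for polynomials all of whose roots are non-integral the constant term
dominates.  `preΨ'_ne_zero_of_nodal`: the division polynomial of a curve with at worst nodal
singularities does not vanish.  Both are used in `AtP`.
-/

set_option autoImplicit false

open Polynomial

namespace FLTAgent.GaloisImage

section Valuation

variable {K : Type*} [Field K] {A : ValuationSubring K}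

local notation "v" => A.valuation

open FLTAgent.ECReduction

/-- If all roots are non-integral the constant coefficient dominates. -/
theorem val_coeff_lt_coeff_zero (s : Multiset K) (hs : ∀ a ∈ s, 1 < v a) :
    (s.map (X - C ·)).prod.coeff 0 ≠ 0 ∧
      ∀ i ≠ 0, v ((s.map (X - C ·)).prod.coeff i) < v ((s.map (X - C ·)).prod.coeff 0) := by
  induction s using Multiset.induction with
  | empty => exact ⟨by simp, fun i hi => by simp [coeff_one, hi]⟩
  | cons a s ih =>
    obtain ⟨h0, hlt⟩ := ih fun x hx => hs x (Multiset.mem_cons_of_mem hx)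
    have ha := hs a (Multiset.mem_cons_self a s)
    rw [Multiset.map_cons, Multiset.prod_cons]
    set P := (s.map (X - C ·)).prod
    have e0 : ((X - C a) * P).coeff 0 = -(a * P.coeff 0) := by simp [mul_coeff_zero]
    refine ⟨by rw [e0, neg_ne_zero]; exact mul_ne_zero (ne_zero_of_one_lt_val A ha) h0,
        fun i hi => ?_⟩
    obtain ⟨j, rfl⟩ : ∃ j, i = j + 1 := ⟨i - 1, by omega⟩
    rw [e0, A.valuation.map_neg, sub_mul, coeff_sub, coeff_X_mul, coeff_C_mul, map_mul]
    have hpos : 0 < v (P.coeff 0) := A.valuation.pos_iff.2 h0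
    refine A.valuation.map_sub_lt ?_ ?_
    · have hle : v (P.coeff j) ≤ v (P.coeff 0) := by
        rcases eq_or_ne j 0 with rfl | hj
        · exact le_rfl
        · exact (hlt j hj).le
      exact hle.trans_lt (lt_mul_of_one_lt_left hpos ha)
    · rw [map_mul]
      exact mul_lt_mul_of_pos_left (hlt _ (Nat.succ_ne_zero j)) (zero_lt_one.trans ha)

end Valuation

section Nodal

variable {k : Type*} [Field k] [IsAlgClosed k] (V : WeierstrassCurve k)

/-- Unless the singularity is a cusp some point of order two is nonsingular. -/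
theorem exists_psi2_point (h2 : (2 : k) ≠ 0) (hns : V.Δ ≠ 0 ∨ V.c₄ ≠ 0) :
    ∃ x y : k, V.toAffine.Nonsingular x y ∧ 2 * y + V.a₁ * x + V.a₃ = 0 := by
  have h4 : (4 : k) ≠ 0 := by rw [show (4 : k) = 2 * 2 by norm_num]; exact mul_ne_zero h2 h2
  -- a simple root of `4 x ^ 3 + b₂ x ^ 2 + 2 b₄ x + b₆`
  obtain ⟨r, hr⟩ : ∃ r, 4 * r ^ 3 + V.b₂ * r ^ 2 + 2 * V.b₄ * r + V.b₆ = 0 := by
    obtain ⟨r, hr⟩ := IsAlgClosed.exists_root V.Ψ₂Sq (by
      have := V.natDegree_Ψ₂Sq h4
      intro h
      rw [natDegree_eq_of_degree_eq_some h] at this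
      norm_num at this)
    refine ⟨r, ?_⟩
    simpa [WeierstrassCurve.Ψ₂Sq, IsRoot] using hr
  obtain ⟨x, hx, hsimple⟩ : ∃ x, 4 * x ^ 3 + V.b₂ * x ^ 2 + 2 * V.b₄ * x + V.b₆ = 0 ∧
      12 * x ^ 2 + 2 * V.b₂ * x + 2 * V.b₄ ≠ 0 := by
    by_cases hd : 12 * r ^ 2 + 2 * V.b₂ * r + 2 * V.b₄ = 0
    · set s := -V.b₂ / 4 - 2 * r with hs
      have hs4 : 4 * s = -V.b₂ - 8 * r := by rw [hs]; field_simp; ring
      refine ⟨s, ?_, fun h => ?_⟩
      · linear_combination (s - r) ^ 2 * hs4 + hr + (s - r) * hd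
      · have hsr : s = r := by
          have h' : 4 * (s - r) ^ 2 = 0 := by linear_combination h - hd - 2 * (s - r) * hs4
          exact sub_eq_zero.1 (pow_eq_zero_iff two_ne_zero |>.1
              ((mul_eq_zero.1 h').resolve_left h4))
        rw [hsr] at hs4
        have hb2 : V.b₂ = -12 * r := by linear_combination hs4
        have hb4 : V.b₄ = 6 * r ^ 2 := mul_left_cancel₀ h2 (by linear_combination hd - 2 * r * hb2)
        have hb6 : V.b₆ = -4 * r ^ 3 := by linear_combination hr - r ^ 2 * hb2 - 2 * r * hb4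
        have hb8 : V.b₈ = 3 * r ^ 4 := mul_left_cancel₀ h4 (by
          rw [V.b_relation, hb2, hb4, hb6]; ring)
        rcases hns with h | h
        · refine h ?_
          rw [WeierstrassCurve.Δ, hb2, hb4, hb6, hb8]; ring
        · refine h ?_
          rw [WeierstrassCurve.c₄, hb2, hb4]; ring
    · exact ⟨r, hr, hd⟩
  refine ⟨x, -(V.a₁ * x + V.a₃) / 2, ?_, by field_simp; ring⟩
  set y := -(V.a₁ * x + V.a₃) / 2 with hy
  have hy2 : 2 * y = -(V.a₁ * x + V.a₃) := by rw [hy]; field_simp
  simp only [WeierstrassCurve.b₂, WeierstrassCurve.b₄, WeierstrassCurve.b₆] at hx hsimple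
  rw [WeierstrassCurve.Affine.nonsingular_iff', WeierstrassCurve.Affine.equation_iff]
  refine ⟨mul_left_cancel₀ h4 ?_, Or.inl fun h => hsimple ?_⟩
  · linear_combination (2 * y + V.a₁ * x + V.a₃) * hy2 - hx
  · linear_combination (-4) * h + 2 * V.a₁ * hy2

/-- The division polynomial of odd level of such a curve does not vanish identically. -/
theorem preΨ'_ne_zero_of_nodal [DecidableEq k] (h2 : (2 : k) ≠ 0) (hns : V.Δ ≠ 0 ∨ V.c₄ ≠ 0)
    {n : ℕ} (hn : Odd n) : V.preΨ' n ≠ 0 := by
  intro h0
  obtain ⟨x, y, h, hy⟩ := exists_psi2_point V h2 hns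
  have e := (FLTAgent.ECTorsion.preΨ'_eval_eq_zero_iff (W := V.toAffine) h hn).2
    (by change (V.preΨ' n).eval x = 0; rw [h0, eval_zero])
  obtain ⟨j, rfl⟩ := hn
  rw [succ_nsmul, mul_nsmul, two_nsmul,
    WeierstrassCurve.Affine.Point.add_self_of_Y_eq (by
      rw [WeierstrassCurve.Affine.negY]; linear_combination hy), nsmul_zero, zero_add] at e
  exact WeierstrassCurve.Affine.Point.some_ne_zero h e

end Nodal

end FLTAgent.GaloisImage
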