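import Fermat.Agent.ExtVanishing.Places
import Mathlib.RingTheory.DedekindDomain.AdicValuation
import Mathlib.NumberTheory.RamificationInertia.Galois

/-!
# A lower bound for the inertia image

`le_card_of_val_eq_one`: an element whose `d`-th power has the value of `1 / q` forces at least
`d` automorphisms in inertia at a place above `q`.  Used at `p` in `AtP`.
-/

set_option autoImplicit false

noncomputable section

open scoped Pointwise NumberField
open WithZero IsDedekindDomain

namespace FLTAgent.GaloisImage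

open FLTAgent.Density FLTAgent.ExtVanishing

variable {A : ValuationSubring Qbar} {q : ℕ}

/-- If `q * x ^ d` is a unit at `A`, at least `d` elements of inertia differ on a Galois `L ∋ x`. -/
theorem le_card_of_val_eq_one (hq : q.Prime) (hA : A.LiesOverPrime q)
    (L : IntermediateField ℚ Qbar) [FiniteDimensional ℚ L] [IsGalois ℚ L] {x : Qbar} (hxL : x ∈ L)
    {d : ℕ} (hx : A.valuation ((q : Qbar) * x ^ d) = 1) {Y : Type} (F : GalQ → Y) (s : Finset Y)
    (hs : ∀ σ ∈ A.inertiaSubgroupIn ℚ, F σ ∈ s)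
    (hF : ∀ σ ∈ A.inertiaSubgroupIn ℚ, ∀ τ ∈ A.inertiaSubgroupIn ℚ, F σ = F τ →
      ∀ y ∈ L, σ y = τ y) : d ≤ s.card := by
  have : NumberField L := { }
  let P : Ideal (𝓞 L) := (primeBelow A).comap (intEmb L)
  have hqP : (q : 𝓞 L) ∈ P := by
    show intEmb L (q : 𝓞 L) ∈ primeBelow A
    rw [map_natCast, mem_primeBelow]
    exact hA
  have hP0 : P ≠ ⊥ := fun h => by
    rw [h, Ideal.mem_bot, Nat.cast_eq_zero] at hqP; exact hq.ne_zero hqP
  have : P.IsPrime := Ideal.comap_isPrime _ _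
  have : P.IsMaximal := Ideal.IsPrime.isMaximal inferInstance hP0
  let w : HeightOneSpectrum (𝓞 L) := ⟨P, inferInstance, hP0⟩
  -- comparison of the two valuations
  have hint : ∀ a : 𝓞 L, ((a : L) : Qbar) ∈ A := fun a =>
    mem_of_isIntegral A (intEmb L a).2
  have hlt : ∀ z : L, w.valuation L z < 1 → A.valuation (z : Qbar) < 1 := by
    intro z hz
    obtain ⟨n, ⟨c, hc⟩, hnc⟩ := w.exists_primeCompl_mul_eq_of_integer z hz.le
    have hvc : w.valuation L (algebraMap (𝓞 L) L c) = 1 :=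
      (w.valuation_eq_one_iff_notMem).2 hc
    have hn : n ∈ P := by
      refine (w.valuation_lt_one_iff_mem (K := L) n).1 ?_
      show w.valuation L (algebraMap (𝓞 L) L n) < 1
      rw [← hnc, map_mul, hvc, mul_one]
      exact hz
    have hn' : A.valuation ((n : L) : Qbar) < 1 := A.mem_nonunits_iff.1 (mem_primeBelow.1 hn)
    have hc' : A.valuation ((c : L) : Qbar) = 1 :=
      le_antisymm ((A.valuation_le_one_iff _).2 (hint c))
        (not_lt.1 fun h => hc (mem_primeBelow.2 (A.mem_nonunits_iff.2 h)))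
    have e : (z : Qbar) * ((c : L) : Qbar) = ((n : L) : Qbar) :=
      congrArg (fun u : L => (u : Qbar)) hnc
    rw [← e, map_mul, hc', mul_one] at hn'
    exact hn'
  have hz : w.valuation L ((q : L) * ⟨x, hxL⟩ ^ d) = 1 := by
    rcases lt_trichotomy (w.valuation L ((q : L) * ⟨x, hxL⟩ ^ d)) 1 with h | h | h
    · exact absurd (by simpa using hlt _ h) hx.not_lt
    · exact h
    · have := hlt ((q : L) * ⟨x, hxL⟩ ^ d)⁻¹ (by rw [map_inv₀]; exact inv_lt_one_of_one_lt₀ h)
      push_cast at this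
      rw [map_inv₀, hx, inv_one] at this
      exact absurd this (lt_irrefl _)
  -- the exponent of `P` in `q`
  have hq0 : (q : 𝓞 L) ≠ 0 := Nat.cast_ne_zero.2 hq.ne_zero
  obtain ⟨l, hl⟩ : ∃ l : ℤ, w.intValuation (q : 𝓞 L) = exp l :=
    ⟨log (w.intValuation (q : 𝓞 L)), (exp_log (w.intValuation_ne_zero _ hq0)).symm⟩
  have hl0 : l ≤ 0 := by
    have := hl ▸ w.intValuation_le_one (q : 𝓞 L)
    rwa [← exp_zero, exp_le_exp] at this
  obtain ⟨k, rfl⟩ : ∃ k : ℕ, l = -(k : ℤ) := ⟨(-l).toNat, by omega⟩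
  have hdvd : (d : ℤ) ∣ (k : ℤ) := by
    rw [map_mul, map_pow, show (q : L) = algebraMap (𝓞 L) L (q : 𝓞 L) from (map_natCast _ q).symm,
      HeightOneSpectrum.valuation_of_algebraMap, hl] at hz
    have h0 : w.valuation L ⟨x, hxL⟩ ^ d ≠ 0 :=
        fun h => by rw [h, mul_zero] at hz; exact zero_ne_one hz
    have := congrArg log hz
    rw [log_mul exp_ne_zero h0, log_exp, log_one, log_pow, nsmul_eq_mul] at this
    exact ⟨log (w.valuation L ⟨x, hxL⟩), by linarith⟩
  -- the inertia group of `P` has `k` elements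
  have hunder : P.under ℤ = Ideal.span {(q : ℤ)} := by
    symm
    refine ((Ideal.span_singleton_prime (by exact_mod_cast hq.ne_zero)).2
      (Nat.prime_iff_prime_int.1 hq)).isMaximal (by simpa using hq.ne_zero) |>.eq_of_le
      (Ideal.IsPrime.ne_top inferInstance) ?_
    rw [Ideal.span_singleton_le_iff_mem, Ideal.under_def, Ideal.mem_comap, map_natCast]
    exact hqP
  have : (P.under ℤ).IsMaximal := Ideal.isMaximal_comap_of_isIntegral_of_isMaximal P
  have : Finite (ℤ ⧸ P.under ℤ) :=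
    Ideal.finiteQuotientOfFreeOfNeBot _ fun h0 => hP0 (Ideal.eq_bot_of_comap_eq_bot h0)
  have : PerfectField (P.under ℤ).ResidueField := PerfectField.ofFinite
  have hpne : P.under ℤ ≠ ⊥ := by
    rw [hunder, Ne, Ideal.span_singleton_eq_bot]; exact_mod_cast hq.ne_zero
  have hk : Nat.card (P.inertia (L ≃ₐ[ℚ] L)) = k := by
    rw [Ideal.card_inertia_eq_ramificationIdxIn (G := L ≃ₐ[ℚ] L) (P.under ℤ) P,
      Ideal.ramificationIdxIn_eq_ramificationIdx (P.under ℤ) P (L ≃ₐ[ℚ] L),
      ← Ideal.ramificationIdx'_eq_ramificationIdx (P.under ℤ) P hpne]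
    have hmap : ∀ n : ℕ, Ideal.map (algebraMap ℤ (𝓞 L)) (P.under ℤ) ≤ P ^ n ↔
        w.intValuation (q : 𝓞 L) ≤ exp (-(n : ℤ)) := fun n => by
      rw [hunder, Ideal.map_span, Set.image_singleton, Ideal.span_singleton_le_iff_mem,
        map_natCast, w.intValuation_le_pow_iff_mem]
    refine Ideal.ramificationIdx'_spec ((hmap k).2 hl.le) fun h => ?_
    have := (hmap (k + 1)).1 h
    rw [hl, exp_le_exp] at this
    omega
  -- lift inertia
  choose g hg1 hg2 using fun τ : P.inertia (L ≃ₐ[ℚ] L) =>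
    exists_inertia_lift hq hA (P := P) rfl τ.2
  have : Finite (P.inertia (L ≃ₐ[ℚ] L)) := inferInstance
  have hle : Nat.card (P.inertia (L ≃ₐ[ℚ] L)) ≤ s.card := by
    rw [← Nat.card_eq_finsetCard]
    refine Nat.card_le_card_of_injective (fun τ => (⟨F (g τ), hs _ (hg1 τ)⟩ : s)) fun τ τ' h => ?_
    have h' := hF _ (hg1 τ) _ (hg1 τ') (congrArg Subtype.val h)
    refine Subtype.ext (AlgEquiv.ext fun y => Subtype.ext ?_)
    rw [← hg2 τ y, ← hg2 τ' y]
    exact h' _ y.2
  have hkpos : 0 < k := by rw [← hk]; exact Nat.card_pos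
  rw [hk] at hle
  exact (Nat.le_of_dvd hkpos (by exact_mod_cast hdvd)).trans hle

end FLTAgent.GaloisImage
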