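import Fermat.Agent.GaloisImage.Local
import Fermat.Agent.GaloisImage.Poly
import Fermat.Agent.GaloisImage.Ramification
import Mathlib.FieldTheory.Normal.Basic
import Mathlib.RingTheory.IntegralDomain

/-!
# Inertia at `p` on the `p`-torsion of a curve with semistable reduction at `p`

`localAtP_matRep`: either every element has the eigenvalue `1`, or the image is cyclic up to sign
with a generator whose square is not scalar.  In the second case the roots of the division
polynomial have one negative slope, which bounds inertia from below.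
-/

set_option autoImplicit false

open Matrix WeierstrassCurve WeierstrassCurve.Affine WeierstrassCurve.Affine.Point
open scoped WeierstrassCurve.Affine

namespace FLTAgent.GaloisImage

open FLTAgent.Density (Qbar GalQ)
open FLTAgent.ECReduction

variable {W : WeierstrassCurve ℤ} {p : ℕ} [Fact p.Prime]
  {A : ValuationSubring (AlgebraicClosure ℚ)}

local notation "v" => A.valuation

/-- The division polynomial over `ℚbar`. -/
noncomputable abbrev divPol (W : WeierstrassCurve ℤ) (p : ℕ) :
    Polynomial (AlgebraicClosure ℚ) :=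
  (W.preΨ' p).map (Int.castRingHom (AlgebraicClosure ℚ))

omit [Fact p.Prime] in
theorem divPol_eq : divPol W p = WeierstrassCurve.preΨ' (EK W) p := by
  rw [map_castQbar, WeierstrassCurve.map_preΨ']

section

variable (hp : p ≠ 2) (hΔ : W.Δ ≠ 0)
include hp

omit hp in
theorem two_mul_deg : 2 * ((p ^ 2 - 1) / 2) = p ^ 2 - 1 ∨ p = 2 := by
  rcases (Fact.out : p.Prime).eq_two_or_odd' with h | ⟨j, rfl⟩
  · exact Or.inr h
  · left
    rw [show (2 * j + 1) ^ 2 - 1 = 2 * (2 * j * (j + 1)) by
      rw [show (2 * j + 1) ^ 2 = 2 * (2 * j * (j + 1)) + 1 by ring, Nat.add_sub_cancel]]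
    omega

theorem not_dvd_deg : ¬ p ∣ (p ^ 2 - 1) / 2 := fun h => by
  have hp1 := (Fact.out : p.Prime).one_lt
  have h2 : p ∣ p ^ 2 - 1 := by
    rw [← (two_mul_deg (p := p)).resolve_right hp]; exact dvd_mul_of_dvd_right h 2
  have h1 : p ∣ 1 := by
    have := Nat.dvd_sub (dvd_pow_self p two_ne_zero) h2
    rwa [Nat.sub_sub_self (Nat.one_le_pow _ _ (by omega))] at this
  exact hp1.ne' (Nat.dvd_one.1 h1)

theorem deg_gt : p - 1 < (p ^ 2 - 1) / 2 := by
  have hp3 : 3 ≤ p := by have := (Fact.out : p.Prime).two_le; omega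
  rw [Nat.lt_div_iff_mul_lt two_pos]
  have : p * 3 ≤ p ^ 2 := by rw [sq]; exact Nat.mul_le_mul_left _ hp3
  have := (two_mul_deg (p := p)).resolve_right hp
  omega

theorem natDegree_divPol : (divPol W p).natDegree = (p ^ 2 - 1) / 2 := by
  rw [divPol_eq, natDegree_preΨ' _ (Nat.cast_ne_zero.2 (Fact.out : p.Prime).ne_zero),
    if_neg (Nat.not_even_iff_odd.2 ((Fact.out : p.Prime).odd_of_ne_two hp))]

theorem leadingCoeff_divPol : (divPol W p).coeff ((p ^ 2 - 1) / 2) = (p : AlgebraicClosure ℚ) := by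
  rw [← natDegree_divPol (W := W) hp, divPol_eq]
  refine (leadingCoeff_preΨ' _ (Nat.cast_ne_zero.2 (Fact.out : p.Prime).ne_zero)).trans ?_
  rw [if_neg (Nat.not_even_iff_odd.2 ((Fact.out : p.Prime).odd_of_ne_two hp))]

theorem eval_divPol_of_mem (z : Tors W p) {x y : AlgebraicClosure ℚ} {h : (EK W).Nonsingular x y}
    (hz : (z : (EK W).Point) = Point.some x y h) : (divPol W p).eval x = 0 := by
  rw [divPol_eq]
  exact (FLTAgent.ECTorsion.preΨ'_eval_eq_zero_iff h ((Fact.out : p.Prime).odd_of_ne_two hp)).1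
    (by rw [← hz]; exact nsmul_tors W z)

omit [Fact p.Prime] hp in
theorem eval_divPol_map (σ : GalQ) {x : AlgebraicClosure ℚ} (hx : (divPol W p).eval x = 0) :
    (divPol W p).eval (σ x) = 0 := by
  rw [Polynomial.eval_map] at hx ⊢
  rw [← RingHom.ext_int ((σ : AlgebraicClosure ℚ →+* AlgebraicClosure ℚ).comp
    (Int.castRingHom _)) (Int.castRingHom _)]
  refine (Polynomial.hom_eval₂ _ _ (σ : AlgebraicClosure ℚ →+* AlgebraicClosure ℚ) x).symm.trans ?_
  rw [hx, _root_.map_zero]

include hΔ

theorem one_lt_val_of_root (htop : torE1 (p := p) W A = ⊤) {x : AlgebraicClosure ℚ}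
    (hx : (divPol W p).eval x = 0) : 1 < v x := by
  have := isElliptic_qbar hΔ
  obtain ⟨y, h, -⟩ := FLTAgent.ECTorsion.exists_point (EK W) x
  have hP : p • (Point.some x y h : (EK W).Point) = 0 :=
    (FLTAgent.ECTorsion.preΨ'_eval_eq_zero_iff h ((Fact.out : p.Prime).odd_of_ne_two hp)).2
      (by rw [← divPol_eq]; exact hx)
  have hmem : (⟨Point.some x y h, (Submodule.mem_torsionBy_iff _ _).2
      (by rw [natCast_zsmul]; exact hP)⟩ : Tors W p) ∈ torE1 W A := by rw [htop]; trivial
  exact inE1_some.1 (mem_torE1.1 hmem)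

variable (hss : (p : ℤ) ∣ W.Δ → ¬ (p : ℤ) ∣ W.c₄) (hA : A.LiesOverPrime p)
  (htop : torE1 (p := p) W A = ⊤)
include hss hA htop

theorem coeff_facts :
    v ((divPol W p).coeff 0) = 1 ∧
      ∀ i, i ≠ 0 → v ((divPol W p).coeff i) ≤ v (p : AlgebraicClosure ℚ) := by
  classical
  have hpr : p.Prime := Fact.out
  have hq0 : divPol W p ≠ 0 := fun h => by
    have := leadingCoeff_divPol (W := W) hp
    rw [h, Polynomial.coeff_zero] at this
    exact hpr.ne_zero (by exact_mod_cast this.symm)
  obtain ⟨h0, hlt⟩ := val_coeff_lt_coeff_zero (A := A) (divPol W p).roots fun x hx =>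
    one_lt_val_of_root hp hΔ htop (Polynomial.mem_roots hq0 |>.1 hx)
  have hprod := (IsAlgClosed.splits (divPol W p)).eq_prod_roots
  have hl : (divPol W p).leadingCoeff ≠ 0 := Polynomial.leadingCoeff_ne_zero.2 hq0
  have hint : ∀ i, v ((divPol W p).coeff i) ≤ 1 := fun i => by
    rw [Polynomial.coeff_map]; exact val_intCast_le A _
  have hsmall : ∀ i, i ≠ 0 → (p : ℤ) ∣ (W.preΨ' p).coeff i := fun i hi => by
    by_contra hd
    have h1 : v ((divPol W p).coeff i) = 1 := by
      rw [Polynomial.coeff_map]; exact val_int_eq_one hpr hA hd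
    have h2 : v ((divPol W p).coeff i) < v ((divPol W p).coeff 0) := by
      rw [hprod, Polynomial.coeff_C_mul, Polynomial.coeff_C_mul, map_mul, map_mul]
      exact mul_lt_mul_of_pos_left (hlt i hi) (A.valuation.pos_iff.2 hl)
    exact absurd (h1.symm.trans_lt h2) (not_lt.2 (hint 0))
  refine ⟨?_, fun i hi => ?_⟩
  · rw [Polynomial.coeff_map]
    refine val_int_eq_one hpr hA fun hd => ?_
    let k := AlgebraicClosure (ZMod p)
    have h0' : (W.map (Int.castRingHom k)).preΨ' p = 0 := by
      rw [WeierstrassCurve.map_preΨ']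
      refine Polynomial.ext fun i => ?_
      rw [Polynomial.coeff_map, Polynomial.coeff_zero, eq_intCast, CharP.intCast_eq_zero_iff k p]
      rcases eq_or_ne i 0 with rfl | hi
      · exact hd
      · exact hsmall i hi
    refine preΨ'_ne_zero_of_nodal (W.map (Int.castRingHom k)) ?_ ?_ (hpr.odd_of_ne_two hp) h0'
    · rw [← Nat.cast_ofNat, Ne, CharP.cast_eq_zero_iff k p, Nat.prime_dvd_prime_iff_eq hpr
        Nat.prime_two]
      exact hp
    · rw [WeierstrassCurve.map_Δ, WeierstrassCurve.map_c₄, eq_intCast, eq_intCast, Ne, Ne,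
        CharP.intCast_eq_zero_iff k p, CharP.intCast_eq_zero_iff k p]
      by_cases hd : (p : ℤ) ∣ W.Δ
      · exact Or.inr (hss hd)
      · exact Or.inl hd
  · obtain ⟨m, hm⟩ := hsmall i hi
    rw [Polynomial.coeff_map, hm, eq_intCast, Int.cast_mul, Int.cast_natCast, map_mul]
    exact mul_le_of_le_one_right' (val_intCast_le A m)

/-- A middle term at a root is small. -/
theorem val_term_lt {x : AlgebraicClosure ℚ} (hx : (divPol W p).eval x = 0) {i : ℕ} (hi : i ≠ 0)
    (hid : i < (p ^ 2 - 1) / 2) :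
    v ((divPol W p).coeff i * x ^ i) < v ((p : AlgebraicClosure ℚ) * x ^ ((p ^ 2 - 1) / 2)) := by
  have hx1 := one_lt_val_of_root hp hΔ htop hx
  rw [map_mul, map_mul, map_pow, map_pow]
  calc v ((divPol W p).coeff i) * v x ^ i ≤ v (p : AlgebraicClosure ℚ) * v x ^ i :=
        mul_le_mul_left ((coeff_facts hp hΔ hss hA htop).2 i hi) _
    _ < _ := mul_lt_mul_of_pos_left (pow_lt_pow_right₀ hx1 hid)
        (A.valuation.pos_iff.2 (Nat.cast_ne_zero.2 (Fact.out : p.Prime).ne_zero))

/-- The value of a root: `p x ^ d` is a unit. -/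
theorem val_root {x : AlgebraicClosure ℚ} (hx : (divPol W p).eval x = 0) :
    v ((p : AlgebraicClosure ℚ) * x ^ ((p ^ 2 - 1) / 2)) = 1 := by
  set d := (p ^ 2 - 1) / 2 with hd
  have hd1 : 0 < d := lt_of_le_of_lt zero_le (deg_gt hp)
  set M := v ((p : AlgebraicClosure ℚ) * x ^ d) with hM
  have hM0 : 0 < M := A.valuation.pos_iff.2 (mul_ne_zero
    (Nat.cast_ne_zero.2 (Fact.out : p.Prime).ne_zero)
    (pow_ne_zero _ (ne_zero_of_one_lt_val A (one_lt_val_of_root hp hΔ htop hx))))
  have he := hx
  rw [Polynomial.eval_eq_sum_range, natDegree_divPol hp, ← hd, Finset.sum_range_succ,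
    hd, leadingCoeff_divPol hp, ← hd, Finset.range_eq_Ico, Finset.sum_eq_sum_Ico_succ_bot hd1,
    pow_zero, mul_one, add_assoc] at he
  have ht : v (∑ i ∈ Finset.Ico (0 + 1) d, (divPol W p).coeff i * x ^ i) < M := by
    refine A.valuation.map_sum_lt hM0.ne' fun i hi => ?_
    obtain ⟨h1, h2⟩ := Finset.mem_Ico.1 hi
    exact val_term_lt hp hΔ hss hA htop hx (by omega) h2
  have h0 : (divPol W p).coeff 0 = -((∑ i ∈ Finset.Ico (0 + 1) d, (divPol W p).coeff i * x ^ i)
      + (p : AlgebraicClosure ℚ) * x ^ d) := eq_neg_of_add_eq_zero_left he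
  have h1 := (coeff_facts hp hΔ hss hA htop).1
  rw [h0, A.valuation.map_neg, A.valuation.map_add_eq_of_lt_right ht] at h1
  exact h1

/-- Two roots with the same leading digit are equal. -/
theorem eq_of_close {x x' : AlgebraicClosure ℚ} (hx : (divPol W p).eval x = 0)
    (hx' : (divPol W p).eval x' = 0) (hclose : v (x' / x - 1) < 1) : x' = x := by
  set d := (p ^ 2 - 1) / 2 with hd
  have hd1 : 0 < d := lt_of_le_of_lt zero_le (deg_gt hp)
  have hx0 : x ≠ 0 := ne_zero_of_one_lt_val A (one_lt_val_of_root hp hΔ htop hx)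
  set u := x' / x with hu
  have hvu : v u ≤ 1 := by
    rw [show u = (u - 1) + 1 by ring]; exact val_add_le A hclose.le (val_one_le A)
  let G : ℕ → AlgebraicClosure ℚ := fun i => ∑ j ∈ Finset.range i, u ^ j
  have hG : ∀ i, v (G i) ≤ 1 := fun i =>
    A.valuation.map_sum_le fun j _ => val_pow_le A hvu j
  have hGu : ∀ i, G i * (u - 1) = u ^ i - 1 := fun i => geom_sum_mul u i
  have hGd : v (G d) = 1 := by
    refine val_eq_one_of_sub_lt A (val_nat_eq_one Fact.out hA (not_dvd_deg hp)) ?_
    rw [show G d - (d : AlgebraicClosure ℚ) = ∑ j ∈ Finset.range d, (u ^ j - 1) by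
      simp [G, Finset.sum_sub_distrib]]
    refine A.valuation.map_sum_lt one_ne_zero fun j _ => ?_
    rw [← hGu]
    exact val_mul_lt_right A (hG j) hclose
  have hsum : (u - 1) * ∑ i ∈ Finset.range (d + 1), (divPol W p).coeff i * x ^ i * G i = 0 := by
    rw [Finset.mul_sum]
    have e : ∀ i, (u - 1) * ((divPol W p).coeff i * x ^ i * G i) =
        (divPol W p).coeff i * x' ^ i - (divPol W p).coeff i * x ^ i := fun i => by
      rw [show x' = u * x by rw [hu, div_mul_cancel₀ _ hx0], mul_pow]
      linear_combination (divPol W p).coeff i * x ^ i * hGu i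
    rw [Finset.sum_congr rfl fun i _ => e i, Finset.sum_sub_distrib, hd,
      ← natDegree_divPol (W := W) hp, ← Polynomial.eval_eq_sum_range,
      ← Polynomial.eval_eq_sum_range, hx, hx', sub_zero]
  rcases mul_eq_zero.1 hsum with h | h
  · rw [sub_eq_zero] at h
    rw [hu, div_eq_one_iff_eq hx0] at h
    exact h
  exfalso
  rw [Finset.sum_range_succ, hd, leadingCoeff_divPol hp, ← hd] at h
  have h1 : v ((p : AlgebraicClosure ℚ) * x ^ d * G d) = 1 := by
    rw [map_mul, val_root hp hΔ hss hA htop hx, hGd, one_mul]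
  have h2 : v (∑ i ∈ Finset.range d, (divPol W p).coeff i * x ^ i * G i) < 1 := by
    refine A.valuation.map_sum_lt one_ne_zero fun i hi => ?_
    rcases eq_or_ne i 0 with rfl | hi0
    · simp [G]
    refine val_mul_lt_left A ?_ (hG i)
    exact (val_term_lt hp hΔ hss hA htop hx hi0 (Finset.mem_range.1 hi)).trans_eq
      (val_root hp hΔ hss hA htop hx)
  have := congrArg v h
  rw [A.valuation.map_add_eq_of_lt_right (h1.symm ▸ h2), h1, _root_.map_zero] at this
  exact one_ne_zero this

omit hΔ hss hA htop in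
theorem exists_root : ∃ x, (divPol W p).eval x = 0 := by
  refine IsAlgClosed.exists_root _ fun h => ?_
  have := natDegree_divPol (W := W) hp
  rw [Polynomial.natDegree_eq_of_degree_eq_some (n := 0) h] at this
  have := deg_gt (p := p) hp
  omega

/-- Two inertia elements agreeing at one root agree at all. -/
theorem eq_at_roots {σ τ : GalQ} (hσ : σ ∈ A.inertiaSubgroupIn ℚ)
    (hτ : τ ∈ A.inertiaSubgroupIn ℚ) {x x' : AlgebraicClosure ℚ}
    (hx : (divPol W p).eval x = 0) (hx' : (divPol W p).eval x' = 0) (h : σ x = τ x) :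
    σ x' = τ x' := by
  have hσ' := inertiaElt_of_mem hσ
  have hτ' := inertiaElt_of_mem hτ
  have hx0 : x ≠ 0 := ne_zero_of_one_lt_val A (one_lt_val_of_root hp hΔ htop hx)
  have hx0' : x' ≠ 0 := ne_zero_of_one_lt_val A (one_lt_val_of_root hp hΔ htop hx')
  have hv : v (x' / x) = 1 := by
    have h1 := val_root hp hΔ hss hA htop hx'
    have h2 := val_root hp hΔ hss hA htop hx
    have h3 : v (x' / x) ^ ((p ^ 2 - 1) / 2) = 1 := by
      rw [← map_pow, show (x' / x) ^ ((p ^ 2 - 1) / 2) =
        ((p : AlgebraicClosure ℚ) * x' ^ ((p ^ 2 - 1) / 2)) /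
          ((p : AlgebraicClosure ℚ) * x ^ ((p ^ 2 - 1) / 2)) by
          rw [mul_div_mul_left _ _ (Nat.cast_ne_zero.2 (Fact.out : p.Prime).ne_zero), div_pow],
        map_div₀, h1, h2, div_one]
    exact (pow_eq_one_iff_of_nonneg zero_le
      (lt_of_le_of_lt zero_le (deg_gt hp)).ne').1 h3
  refine eq_of_close hp hΔ hss hA htop (eval_divPol_map τ hx') (eval_divPol_map σ hx') ?_
  have e : σ x' / τ x' - 1 = (σ (x' / x) - τ (x' / x)) / τ (x' / x) := by
    rw [map_div₀, map_div₀, h]
    have hn : τ x ≠ 0 := by simpa using hx0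
    have hn' : τ x' ≠ 0 := by simpa using hx0'
    field_simp
  rw [e, map_div₀ v, hτ'.val_map, hv, div_one,
    show σ (x' / x) - τ (x' / x) = (σ (x' / x) - x' / x) - (τ (x' / x) - x' / x) by ring]
  exact val_sub_lt A (hσ'.sub_lt _ hv.le) (hτ'.sub_lt _ hv.le)


/-- The inertia orbit of a root, measured by any separating function, has at least `d` elements. -/
theorem deg_le_card {x₀ : AlgebraicClosure ℚ} (hx₀ : (divPol W p).eval x₀ = 0) {Y : Type}
    (F : GalQ → Y) (s : Finset Y) (hs : ∀ σ ∈ A.inertiaSubgroupIn ℚ, F σ ∈ s)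
    (hF : ∀ σ ∈ A.inertiaSubgroupIn ℚ, ∀ τ ∈ A.inertiaSubgroupIn ℚ, F σ = F τ → σ x₀ = τ x₀) :
    (p ^ 2 - 1) / 2 ≤ s.card := by
  let qQ : Polynomial ℚ := (W.preΨ' p).map (Int.castRingHom ℚ)
  let L : IntermediateField ℚ (AlgebraicClosure ℚ) :=
    IntermediateField.adjoin ℚ (qQ.rootSet (AlgebraicClosure ℚ))
  have hsf : qQ.IsSplittingField ℚ L :=
    IntermediateField.adjoin_rootSet_isSplittingField (IsAlgClosed.splits _)
  have : FiniteDimensional ℚ L := Polynomial.IsSplittingField.finiteDimensional L qQ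
  have : Normal ℚ L := Normal.of_isSplittingField qQ
  have : IsGalois ℚ L := ⟨⟩
  have hroot : ∀ x, x ∈ qQ.rootSet (AlgebraicClosure ℚ) ↔ (divPol W p).eval x = 0 := by
    intro x
    have e : Polynomial.aeval x qQ = (divPol W p).eval x := by
      rw [Polynomial.aeval_def, Polynomial.eval₂_map, Polynomial.eval_map]
      exact congrArg (fun f => Polynomial.eval₂ f x (W.preΨ' p)) (RingHom.ext_int _ _)
    rw [Polynomial.mem_rootSet, e]
    refine and_iff_right fun h => ?_
    have := natDegree_divPol (W := W) hp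
    have h2 : divPol W p = qQ.map (algebraMap ℚ (AlgebraicClosure ℚ)) := by
      rw [Polynomial.map_map]
      exact congrArg (fun f => (W.preΨ' p).map f) (RingHom.ext_int _ _)
    rw [h, Polynomial.map_zero] at h2
    rw [h2] at this
    simp at this
    have := deg_gt (p := p) hp
    omega
  exact le_card_of_val_eq_one Fact.out hA L
    (IntermediateField.subset_adjoin ℚ _ ((hroot x₀).2 hx₀))
    (val_root hp hΔ hss hA htop hx₀) F s hs fun g hg g' hg' hgg' y hy => by
      induction hy using IntermediateField.adjoin_induction with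
      | mem x hx =>
        exact eq_at_roots hp hΔ hss hA htop hg hg' hx₀ ((hroot x).1 hx) (hF g hg g' hg' hgg')
      | algebraMap a => rw [AlgEquiv.commutes, AlgEquiv.commutes]
      | add _ _ _ _ h1 h2 => rw [map_add, map_add, h1, h2]
      | inv _ _ h1 => rw [map_inv₀, map_inv₀, h1]
      | mul _ _ _ _ h1 h2 => rw [map_mul, map_mul, h1, h2]

/-- When all the torsion reduces to the origin, inertia is transitive on it up to sign. -/
theorem exists_smul_eq_or_neg_of_top {z z' : Tors W p} (hz : z ≠ 0) (hz' : z' ≠ 0) :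
    ∃ σ ∈ A.inertiaSubgroupIn ℚ, σ • z = z' ∨ σ • z = -z' := by
  classical
  rcases hze : (z : (EK W).Point) with _ | ⟨x, y, h⟩
  · exact absurd (Subtype.ext hze) hz
  rcases hze' : (z' : (EK W).Point) with _ | ⟨x', y', h'⟩
  · exact absurd (Subtype.ext hze') hz'
  have hx := eval_divPol_of_mem hp z hze
  have hq0 : divPol W p ≠ 0 := fun e => by
    have := natDegree_divPol (W := W) hp
    rw [e, Polynomial.natDegree_zero] at this
    have := deg_gt (p := p) hp
    omega
  let R := (divPol W p).roots.toFinset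
  have hR : ∀ u, u ∈ R ↔ (divPol W p).eval u = 0 := fun u => by
    rw [Multiset.mem_toFinset, Polynomial.mem_roots hq0]; rfl
  let s := R.filter fun u => ∃ σ ∈ A.inertiaSubgroupIn ℚ, σ x = u
  have hle := deg_le_card hp hΔ hss hA htop hx (fun g => g x) s
    (fun g hg => Finset.mem_filter.2 ⟨(hR _).2 (eval_divPol_map g hx), g, hg, rfl⟩)
    (fun _ _ _ _ e => e)
  have hcard : R.card ≤ (p ^ 2 - 1) / 2 := (Multiset.toFinset_card_le _).trans
    ((Polynomial.card_roots' _).trans_eq (natDegree_divPol hp))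
  have hs : s = R := Finset.eq_of_subset_of_card_le (Finset.filter_subset _ _) (hcard.trans hle)
  obtain ⟨-, σ, hσ, hσx⟩ := Finset.mem_filter.1
    (hs.symm ▸ (hR x').2 (eval_divPol_of_mem hp z' hze') : x' ∈ s)
  have e : ((σ • z : Tors W p) : (EK W).Point) =
      Point.some (σ x) (σ y) (nonsingular_smul σ h) := by
    rw [coe_smul_tors, hze]; rfl
  refine ⟨σ, hσ, ?_⟩
  rcases Y_eq_of_X_eq (nonsingular_smul σ h).1 h'.1 hσx with hy | hy
  · left
    refine Subtype.ext ?_
    rw [e, hze', Point.some.injEq]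
    exact ⟨hσx, hy⟩
  · right
    refine Subtype.ext ?_
    rw [e, Submodule.coe_neg, hze', Point.neg_some, Point.some.injEq]
    exact ⟨hσx, hy⟩

omit hΔ hss hA htop

/-- Inertia fixing all abscissae acts as a sign. -/
theorem matRep_eq_one_or_neg_one (b : Module.Basis (Fin 2) (ZMod p) (Tors W p)) {g : GalQ}
    (hg : ∀ x, (divPol W p).eval x = 0 → g x = x) :
    matRep W p b g = 1 ∨ matRep W p b g = -1 := by
  have hpm : ∀ z : Tors W p, g • z = z ∨ g • z = -z := by
    intro z
    rcases hze : (z : (EK W).Point) with _ | ⟨x, y, h⟩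
    · left
      rw [show z = 0 from Subtype.ext hze, smul_zero]
    have hx := hg x (eval_divPol_of_mem hp z hze)
    have e : ((g • z : Tors W p) : (EK W).Point) =
        Point.some (g x) (g y) (nonsingular_smul g h) := by
      rw [coe_smul_tors, hze]; rfl
    rcases Y_eq_of_X_eq (nonsingular_smul g h).1 h.1 hx with hy | hy
    · left
      refine Subtype.ext ?_
      rw [e, hze, Point.some.injEq]
      exact ⟨hx, hy⟩
    · right
      refine Subtype.ext ?_
      rw [e, Submodule.coe_neg, hze, Point.neg_some, Point.some.injEq]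
      exact ⟨hx, hy⟩
  have h2 : ∀ z : Tors W p, z + z = 0 → z = 0 := by
    intro z hz
    have : (2 : ZMod p) • z = 0 := by rw [two_smul]; exact hz
    exact (smul_eq_zero.1 this).resolve_left (two_ne_zero_of_ne_two hp)
  have key : (∀ j, g • b j = b j) ∨ ∀ j, g • b j = -b j := by
    rcases hpm (b 0) with h0 | h0 <;> rcases hpm (b 1) with h1 | h1
    · exact Or.inl fun j => by fin_cases j <;> assumption
    · exfalso
      rcases hpm (b 0 + b 1) with h | h <;> rw [smul_add, h0, h1] at h
      · exact b.ne_zero 1 (h2 _ (by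
          rw [← sub_eq_zero] at h
          rw [← neg_eq_zero, ← h]; abel))
      · exact b.ne_zero 0 (h2 _ (by
          rw [← sub_eq_zero] at h
          rw [← h]; abel))
    · exfalso
      rcases hpm (b 0 + b 1) with h | h <;> rw [smul_add, h0, h1] at h
      · exact b.ne_zero 0 (h2 _ (by
          rw [← sub_eq_zero] at h
          rw [← neg_eq_zero, ← h]; abel))
      · exact b.ne_zero 1 (h2 _ (by
          rw [← sub_eq_zero] at h
          rw [← h]; abel))
    · exact Or.inr fun j => by fin_cases j <;> assumption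
  have e : ∀ j, ⇑(b.repr (b j)) = Pi.single j (1 : ZMod p) := fun j => by
    rw [b.repr_self]; exact Finsupp.single_eq_pi_single j 1
  rcases key with h | h
  · refine Or.inl (ext_of_mulVec_single fun j => ?_)
    rw [← e, matRep_mulVec, h, one_mulVec]
  · refine Or.inr (ext_of_mulVec_single fun j => ?_)
    rw [← e, matRep_mulVec, h, neg_mulVec, one_mulVec, _root_.map_neg]
    rfl

include hΔ hss hA htop

/-- When all the torsion reduces to the origin: cyclic up to sign, the square of a generator is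
not scalar. -/
theorem exists_generator_of_top (b : Module.Basis (Fin 2) (ZMod p) (Tors W p)) :
    ∃ σ ∈ A.inertiaSubgroupIn ℚ,
      (∀ τ ∈ A.inertiaSubgroupIn ℚ, ∃ j : ℕ,
        matRep W p b τ = matRep W p b σ ^ j ∨ matRep W p b τ = -(matRep W p b σ ^ j)) ∧
      ∀ c : ZMod p, matRep W p b σ * matRep W p b σ ≠ c • 1 := by
  classical
  have hpr : p.Prime := Fact.out
  obtain ⟨x₀, hx₀⟩ := exists_root (W := W) hp
  have hx0 : x₀ ≠ 0 := ne_zero_of_one_lt_val A (one_lt_val_of_root hp hΔ htop hx₀)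
  let I := A.inertiaSubgroupIn ℚ
  have hu : ∀ σ : I, (σ : GalQ) x₀ / x₀ ∈ A := fun σ => by
    rw [← val_le_iff, map_div₀, (inertiaElt_of_mem σ.2).val_map,
      div_self (A.valuation.ne_zero_iff.2 hx0)]
  let r₀ : I →* IsLocalRing.ResidueField A :=
    { toFun := fun σ => IsLocalRing.residue A ⟨_, hu σ⟩
      map_one' := by
        rw [← map_one (IsLocalRing.residue A)]
        congr 1
        exact Subtype.ext (by simp [div_self hx0])
      map_mul' := fun σ τ => by
        have hvt : v ((τ : GalQ) x₀ / x₀) ≤ 1 := (val_le_iff A).2 (hu τ)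
        have hmem : (σ : GalQ) ((τ : GalQ) x₀ / x₀) ∈ A := by
          rw [← val_le_iff, (inertiaElt_of_mem σ.2).val_map]; exact hvt
        have e : (⟨_, hu (σ * τ)⟩ : A) = ⟨_, hu σ⟩ * ⟨_, hmem⟩ := by
          refine Subtype.ext ?_
          show ((σ * τ : I) : GalQ) x₀ / x₀ = (σ : GalQ) x₀ / x₀ * (σ : GalQ) ((τ : GalQ) x₀ / x₀)
          have hσx : (σ : GalQ) x₀ ≠ 0 := by simpa using hx0
          rw [Subgroup.coe_mul, AlgEquiv.mul_apply, map_div₀]
          field_simp
        rw [e, map_mul]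
        congr 1
        exact ECTorsion.Red.residue_eq_of_val_sub_lt
          ((inertiaElt_of_mem σ.2).sub_lt _ hvt) }
  have hr : ∀ σ τ : I, r₀ σ = r₀ τ → ∀ x, (divPol W p).eval x = 0 →
      (σ : GalQ) x = (τ : GalQ) x := by
    intro σ τ h x hx
    refine eq_at_roots hp hΔ hss hA htop σ.2 τ.2 hx₀ hx ?_
    refine eq_of_close hp hΔ hss hA htop (eval_divPol_map (τ : GalQ) hx₀)
      (eval_divPol_map (σ : GalQ) hx₀) ?_
    have h1 : v ((σ : GalQ) x₀ / x₀ - (τ : GalQ) x₀ / x₀) < 1 :=
      ECTorsion.Red.val_sub_lt_of_residue_eq h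
    have hτ0 : (τ : GalQ) x₀ ≠ 0 := by simpa using hx0
    rw [show (σ : GalQ) x₀ / (τ : GalQ) x₀ - 1 =
      ((σ : GalQ) x₀ / x₀ - (τ : GalQ) x₀ / x₀) / ((τ : GalQ) x₀ / x₀) by field_simp,
      map_div₀ v, map_div₀ v ((τ : GalQ) x₀), (inertiaElt_of_mem τ.2).val_map,
      div_self (A.valuation.ne_zero_iff.2 hx0), div_one]
    exact h1
  let r : I →* (IsLocalRing.ResidueField A)ˣ := r₀.toHomUnits
  have : Finite r.range := by
    let R := {x // x ∈ (divPol W p).roots.toFinset}
    have hq0 : divPol W p ≠ 0 := fun h => by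
      have := natDegree_divPol (W := W) hp
      rw [h, Polynomial.natDegree_zero] at this
      have := deg_gt (p := p) hp
      omega
    let f : r.range → R := fun y => ⟨((Classical.choose (MonoidHom.mem_range.1 y.2)
        : I) : GalQ) x₀, by
      rw [Multiset.mem_toFinset, Polynomial.mem_roots hq0]
      exact eval_divPol_map _ hx₀⟩
    refine Finite.of_injective f fun y y' h => ?_
    have hh : ((Classical.choose (MonoidHom.mem_range.1 y.2) : I) : GalQ) x₀ =
        ((Classical.choose (MonoidHom.mem_range.1 y'.2) : I) : GalQ) x₀ :=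
      congrArg Subtype.val h
    refine Subtype.ext ?_
    rw [← Classical.choose_spec (MonoidHom.mem_range.1 y.2),
        ← Classical.choose_spec (MonoidHom.mem_range.1 y'.2)]
    refine Units.ext ?_
    show IsLocalRing.residue A ⟨_, hu _⟩ = IsLocalRing.residue A ⟨_, hu _⟩
    congr 1
    exact Subtype.ext (congrArg (· / x₀) hh)
  obtain ⟨⟨_, σ, rfl⟩, hσgen⟩ := IsCyclic.exists_monoid_generator (α := r.range)
  have hgen : ∀ τ : I, ∃ j : ℕ, r₀ τ = r₀ σ ^ j := fun τ => by
    obtain ⟨j, hj⟩ := (Submonoid.mem_powers_iff _ _).1 (hσgen ⟨r τ, τ, rfl⟩)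
    exact ⟨j, (congrArg (fun y : r.range => ((y : (IsLocalRing.ResidueField A)ˣ) :
      IsLocalRing.ResidueField A)) hj).symm⟩
  refine ⟨σ, σ.2, fun τ hτ => ?_, fun c hc => ?_⟩
  · obtain ⟨j, hj⟩ := hgen ⟨τ, hτ⟩
    refine ⟨j, ?_⟩
    rw [← map_pow] at hj
    have hfix : ∀ x, (divPol W p).eval x = 0 → (((σ : GalQ) ^ j)⁻¹ * τ) x = x := fun x hx => by
      have h1 : τ x = ((σ : GalQ) ^ j) x := hr ⟨τ, hτ⟩ (σ ^ j) hj x hx
      rw [AlgEquiv.mul_apply, h1, ← AlgEquiv.mul_apply, inv_mul_cancel, AlgEquiv.one_apply]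
    have e : matRep W p b τ =
        matRep W p b σ ^ j * matRep W p b (((σ : GalQ) ^ j)⁻¹ * τ) := by
      rw [← map_pow, ← map_mul, mul_inv_cancel_left]
    rcases matRep_eq_one_or_neg_one hp b hfix with h | h <;> rw [h] at e
    · exact Or.inl (by rw [e, mul_one])
    · exact Or.inr (by rw [e, mul_neg, mul_one])
  · -- a scalar square would bound the image by `p - 1`
    have hpow : matRep W p b ((σ : GalQ) ^ (p - 1)) = 1 ∨
        matRep W p b ((σ : GalQ) ^ (p - 1)) = -1 := by
      obtain ⟨k, hk⟩ := hpr.odd_of_ne_two hp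
      rw [map_pow, show p - 1 = 2 * k by omega, pow_mul, sq, hc, smul_pow, one_pow]
      have hc0 : c ≠ 0 := fun h => by
        rw [h, zero_smul] at hc
        have h' := congrArg Matrix.det hc
        rw [det_mul, det_zero, mul_self_eq_zero] at h'
        exact ((isUnit_iff_isUnit_det _).mp (isUnit_image (matRep W p b) (σ : GalQ))).ne_zero h'
      have h2 : c ^ k * c ^ k = 1 := by
        rw [← pow_add, show k + k = p - 1 by omega, ZMod.pow_card_sub_one_eq_one hc0]
      rcases mul_self_eq_one_iff.1 h2 with h | h <;> rw [h]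
      · exact Or.inl (one_smul _ _)
      · exact Or.inr (by rw [neg_smul, one_smul])
    -- so its residue is a `(p - 1)`-th root of unity
    have hσp : r₀ σ ^ (p - 1) = 1 := by
      have := isElliptic_qbar hΔ
      obtain ⟨y, h, -⟩ := FLTAgent.ECTorsion.exists_point (EK W) x₀
      have hP : p • (Point.some x₀ y h : (EK W).Point) = 0 :=
        (FLTAgent.ECTorsion.preΨ'_eval_eq_zero_iff h (hpr.odd_of_ne_two hp)).2
          (by rw [← divPol_eq]; exact hx₀)
      let z : Tors W p := ⟨_, (Submodule.mem_torsionBy_iff _ _).2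
        (by rw [natCast_zsmul]; exact hP)⟩
      have hz : ((σ : GalQ) ^ (p - 1)) • z = z ∨ ((σ : GalQ) ^ (p - 1)) • z = -z := by
        have e := matRep_mulVec b ((σ : GalQ) ^ (p - 1)) z
        rcases hpow with h' | h' <;> rw [h'] at e
        · rw [one_mulVec] at e
          exact Or.inl (b.repr.injective (DFunLike.coe_injective e)).symm
        · rw [neg_mulVec, one_mulVec] at e
          refine Or.inr (b.repr.injective (DFunLike.coe_injective ?_))
          rw [_root_.map_neg, Finsupp.coe_neg, e]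
      have hfix : ((σ : GalQ) ^ (p - 1)) x₀ = x₀ := by
        rcases hz with h' | h' <;> have h'' := congrArg Subtype.val h'
        · rw [coe_smul_tors] at h''
          exact ((Point.some.injEq ..).mp h'').1
        · rw [coe_smul_tors, Submodule.coe_neg, Point.neg_some] at h''
          exact ((Point.some.injEq ..).mp h'').1
      rw [← map_pow, ← map_one r₀]
      show IsLocalRing.residue A ⟨_, hu _⟩ = IsLocalRing.residue A ⟨_, hu _⟩
      congr 1
      exact Subtype.ext (by simp only [SubmonoidClass.coe_pow, OneMemClass.coe_one, hfix,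
        AlgEquiv.one_apply])
    -- against ramification
    let F : GalQ → IsLocalRing.ResidueField A := fun g =>
      if hg : g ∈ I then r₀ ⟨g, hg⟩ else 0
    have hd := deg_le_card hp hΔ hss hA htop hx₀ F (Polynomial.nthRootsFinset (p - 1) 1)
      (fun g hg => by
        have hp2 := hpr.two_le
        simp only [F, dif_pos (show g ∈ I from hg)]
        rw [Polynomial.mem_nthRootsFinset (by omega)]
        obtain ⟨j, hj⟩ := hgen ⟨g, hg⟩
        rw [hj, ← pow_mul, mul_comm, pow_mul, hσp, one_pow])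
      (fun g hg g' hg' hgg' => by
        simp only [F, dif_pos (show g ∈ I from hg), dif_pos (show g' ∈ I from hg')] at hgg'
        exact hr ⟨g, hg⟩ ⟨g', hg'⟩ hgg' x₀ hx₀)
    have hcard : (Polynomial.nthRootsFinset (p - 1) (1 : IsLocalRing.ResidueField A)).card
        ≤ p - 1 := by
      rw [Polynomial.nthRootsFinset_def]
      exact (Multiset.toFinset_card_le _).trans (Polynomial.card_nthRoots _ _)
    have := deg_gt (p := p) hp
    omega

end

/-- The shape of inertia at `p`. -/
theorem localAtP_matRep (hp : p ≠ 2) (hΔ : W.Δ ≠ 0) (hW : W.IsSemistableModel)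
    (hA : A.LiesOverPrime p) (b : Module.Basis (Fin 2) (ZMod p) (Tors W p)) :
    LocalAtP (matRep W p b) (A.inertiaSubgroupIn ℚ) := by
  by_cases h : torE1 (p := p) W A = ⊤
  · exact Or.inr (exists_generator_of_top hp hΔ (hW p Fact.out) hA h b)
  · exact Or.inl fun σ hσ => det_sub_one_of_ne_top b hp hW Fact.out hA h hσ

end FLTAgent.GaloisImage
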