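import Fermat.Agent.GaloisImage.Monomial

/-!
# No stable line on a subgroup of index two

For a mod `p` representation with no stable line and with the local images of a semistable curve
(`LocalData`), `not_stableVec_of_index_two` shows that no subgroup of index two fixes a line,
even over an extension field: a monomial structure would force a forbidden image of inertia.
-/

set_option autoImplicit false

open Matrix

namespace FLTAgent.GaloisImage

variable {Γ : Type} [Group Γ] {p : ℕ} [Fact p.Prime]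

/-- Local data: generation, unipotence off `bad`, and the shape of the images at `bad`. -/
structure LocalData {ι : Type} (R : Γ →* Matrix (Fin 2) (Fin 2) (ZMod p)) (I : ι → Subgroup Γ)
    (bad : Set ι) : Prop where
  gen : ∀ H : Subgroup Γ, (∀ g, R g = 1 → g ∈ H) → (∀ i, I i ≤ H) → H = ⊤
  unip : ∀ i ∉ bad, ∀ σ ∈ I i, (R σ - 1) * (R σ - 1) = 0
  atP : ∀ i ∈ bad, LocalAtP R (I i)
  det : ∀ i ∈ bad, ∀ a : ZMod p, a ≠ 0 → ∃ σ ∈ I i, (R σ).det = a
  conj : ∀ i ∈ bad, ∀ j ∈ bad, ∃ g : Γ, ∀ σ ∈ I j, g⁻¹ * σ * g ∈ I i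

variable {K : Type} [Field K] [Algebra (ZMod p) K]
  {R : Γ →* Matrix (Fin 2) (Fin 2) (ZMod p)} {G : Subgroup Γ}
  {ψ : Matrix (Fin 2) (Fin 2) (ZMod p) →+* Matrix (Fin 2) (Fin 2) K}
  {ι : Type} {I : ι → Subgroup Γ} {bad : Set ι}

theorem isUnit_image (R : Γ →* Matrix (Fin 2) (Fin 2) (ZMod p)) (g : Γ) : IsUnit (R g) :=
  (Group.isUnit g).map R

theorem two_ne_zero_ext (hp : p ≠ 2) : (2 : K) ≠ 0 := by
  rw [← map_ofNat (algebraMap (ZMod p) K) 2]
  exact (_root_.map_ne_zero _).mpr (two_ne_zero_of_ne_two hp)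

omit [Algebra (ZMod p) K] in
theorem mem_of_image_eq_one (hm : IsMonomial (ψ.toMonoidHom.comp R) G) {g : Γ} (hg : R g = 1) :
    g ∈ G := by
  by_contra hgG
  have := (hm.anti g hgG).1
  change ψ (R g) 0 0 = 0 at this
  rw [hg, map_one] at this
  simp at this

theorem image_eq_one_of_unipotent (hp : p ≠ 2) (hψ : Function.Injective ψ)
    (hm : IsMonomial (ψ.toMonoidHom.comp R) G) {g : Γ} (hu : (R g - 1) * (R g - 1) = 0) :
    R g = 1 := hψ <| by
  rw [map_one]
  refine hm.eq_one_of_unipotent (two_ne_zero_ext hp) (g := g) ?_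
  change (ψ (R g) - 1) * (ψ (R g) - 1) = 0
  rw [← map_one ψ, ← map_sub, ← map_mul, hu, map_zero]

/-- Where the local subgroup leaves `G`, every element has the eigenvalue `1`. -/
theorem det_sub_one_eq_zero (hψ : Function.Injective ψ)
    (hdet : ∀ x, (ψ x).det = algebraMap (ZMod p) K x.det)
    (hm : IsMonomial (ψ.toMonoidHom.comp R) G) {J : Subgroup Γ} (hJ : LocalAtP R J)
    (hJG : ¬ J ≤ G) : ∀ σ ∈ J, (R σ - 1).det = 0 := by
  refine hJ.resolve_right ?_
  rintro ⟨σ, hσ, hgenσ, hns⟩
  by_cases hσG : σ ∈ G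
  · refine hJG fun t ht => ?_
    obtain ⟨m, hm'⟩ := hgenσ t ht
    by_contra htG
    obtain ⟨d0, d1⟩ := hm.anti t htG
    obtain ⟨c0, c1⟩ := hm.diag (σ ^ m) (G.pow_mem hσG m)
    change ψ (R (σ ^ m)) 0 1 = 0 at c0
    change ψ (R (σ ^ m)) 1 0 = 0 at c1
    change ψ (R t) 0 0 = 0 at d0
    change ψ (R t) 1 1 = 0 at d1
    rw [map_pow] at c0 c1
    have hd : ψ (R t) 0 1 = 0 ∧ ψ (R t) 1 0 = 0 := by
      rcases hm' with e | e <;> rw [e]
      · exact ⟨c0, c1⟩
      · rw [map_neg, Matrix.neg_apply, Matrix.neg_apply, c0, c1, neg_zero]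
        exact ⟨rfl, rfl⟩
    have h0 : (ψ (R t)).det = 0 := by rw [det_fin_two, d0, hd.1, zero_mul, zero_mul, sub_zero]
    exact ((isUnit_iff_isUnit_det _).mp ((isUnit_image R t).map ψ)).ne_zero h0
  · refine hns (-(R σ).det) (hψ ?_)
    have e := hm.sq_anti hσG
    change ψ (R σ) * ψ (R σ) = (-(ψ (R σ)).det) • (1 : Matrix (Fin 2) (Fin 2) K) at e
    rw [hdet, ← map_neg] at e
    rw [map_mul, e, ← map_one ψ]
    generalize -(R σ).det = c
    rw [← ZMod.natCast_zmod_val c, map_natCast, Nat.cast_smul_eq_nsmul, Nat.cast_smul_eq_nsmul,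
      map_nsmul]

/-- Off `G` such elements have determinant `-1`. -/
theorem det_eq_neg_one (htr : ∀ x, (ψ x).trace = algebraMap (ZMod p) K x.trace)
    (hm : IsMonomial (ψ.toMonoidHom.comp R) G) {σ : Γ} (hσG : σ ∉ G) (h0 : (R σ - 1).det = 0) :
    (R σ).det = -1 := by
  obtain ⟨a, b⟩ := hm.anti σ hσG
  change ψ (R σ) 0 0 = 0 at a
  change ψ (R σ) 1 1 = 0 at b
  have ht := htr (R σ)
  rw [trace_fin_two, trace_fin_two, a, b, add_zero, ← map_zero (algebraMap (ZMod p) K)] at ht
  have ht' := (algebraMap (ZMod p) K).injective ht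
  rw [det_fin_two] at h0 ⊢
  simp at h0
  linear_combination h0 - ht'

/-- On a bad place leaving `G`: `p = 3` and the image has at most one nontrivial element. -/
theorem bad_image (hp : p ≠ 2) (D : LocalData R I bad) (hψ : Function.Injective ψ)
    (hdet : ∀ x, (ψ x).det = algebraMap (ZMod p) K x.det)
    (htr : ∀ x, (ψ x).trace = algebraMap (ZMod p) K x.trace) (hG : G.index = 2)
    (hm : IsMonomial (ψ.toMonoidHom.comp R) G) {i : ι} (hi : i ∈ bad) {h₀ : Γ} (hh₀ : h₀ ∈ I i)
    (hh₀G : h₀ ∉ G) : p = 3 ∧ ∀ σ ∈ I i, R σ = 1 ∨ R σ = R h₀ := by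
  have hmm := fun a b : Γ => G.mul_mem_iff_of_index_two hG (a := a) (b := b)
  have hA := det_sub_one_eq_zero hψ hdet hm (D.atP i hi) (fun h => hh₀G (h hh₀))
  have hoff : ∀ σ ∈ I i, σ ∉ G → (R σ).det = -1 :=
    fun σ hσ hσG => det_eq_neg_one htr hm hσG (hA σ hσ)
  have hdet1 : ∀ g ∈ I i, g ∈ G → (R g).det = 1 := fun g hg hgG => by
    have := hoff (h₀ * g) (mul_mem hh₀ hg) fun h => hh₀G ((G.mul_mem_cancel_right hgG).mp h)
    rw [map_mul, det_mul, hoff h₀ hh₀ hh₀G] at this
    linear_combination -this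
  refine ⟨?_, fun σ hσ => ?_⟩
  · have hall : ∀ a : ZMod p, a ≠ 0 → a = 1 ∨ a = -1 := fun a ha => by
      obtain ⟨σ, hσ, rfl⟩ := D.det i hi a ha
      by_cases hσG : σ ∈ G
      · exact .inl (hdet1 σ hσ hσG)
      · exact .inr (hoff σ hσ hσG)
    rcases hall 2 (two_ne_zero_of_ne_two hp) with h | h
    · exact absurd (show (1 : ZMod p) = 0 by linear_combination h) one_ne_zero
    · have h3 : ((3 : ℕ) : ZMod p) = 0 := by push_cast; linear_combination h
      rw [ZMod.natCast_eq_zero_iff] at h3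
      exact (Nat.prime_dvd_prime_iff_eq Fact.out Nat.prime_three).mp h3
  · have triv : ∀ g ∈ I i, g ∈ G → R g = 1 := fun g hg hgG => by
      refine image_eq_one_of_unipotent hp hψ hm ?_
      -- Cayley–Hamilton
      have h0 := hA g hg
      have hd := hdet1 g hg hgG
      rw [det_fin_two] at h0 hd
      simp at h0
      ext u w
      fin_cases u <;> fin_cases w <;> simp [Matrix.mul_apply, Fin.sum_univ_two, Matrix.one_apply]
      · linear_combination (R g 0 0) * (hd - h0) - hd
      · linear_combination (R g 0 1) * (hd - h0)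
      · linear_combination (R g 1 0) * (hd - h0)
      · linear_combination (R g 1 1) * (hd - h0) - hd
    by_cases hσG : σ ∈ G
    · exact .inl (triv σ hσ hσG)
    · right
      have h1 := triv (h₀ * σ) (mul_mem hh₀ hσ) ((hmm _ _).mpr (iff_of_false hh₀G hσG))
      have h2 := triv (h₀ * h₀) (mul_mem hh₀ hh₀) ((hmm _ _).mpr (iff_of_false hh₀G hh₀G))
      rw [map_mul] at h1 h2
      calc R σ = R h₀ * R h₀ * R σ := by rw [h2, one_mul]
        _ = R h₀ := by rw [mul_assoc, h1, mul_one]

/-- The determinant is the sign of `G` (at `p = 3`). -/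
theorem det_eq_sign (hp : p ≠ 2) (D : LocalData R I bad) (hψ : Function.Injective ψ)
    (hdet : ∀ x, (ψ x).det = algebraMap (ZMod p) K x.det)
    (htr : ∀ x, (ψ x).trace = algebraMap (ZMod p) K x.trace) (hG : G.index = 2)
    (hm : IsMonomial (ψ.toMonoidHom.comp R) G) {i : ι} (hi : i ∈ bad) {h₀ : Γ} (hh₀ : h₀ ∈ I i)
    (hh₀G : h₀ ∉ G) (g : Γ) :
    (g ∈ G → (R g).det = 1) ∧ (g ∉ G → (R g).det = -1) := by
  classical
  have hGn : G.Normal := Subgroup.normal_of_index_eq_two hG
  have hmm := fun a b : Γ => G.mul_mem_iff_of_index_two hG (a := a) (b := b)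
  let H : Subgroup Γ :=
    { carrier := {g | (g ∈ G → (R g).det = 1) ∧ (g ∉ G → (R g).det = -1)}
      one_mem' := ⟨fun _ => by rw [map_one, det_one], fun h => absurd G.one_mem h⟩
      mul_mem' := by
        rintro a b ⟨ha, ha'⟩ ⟨hb, hb'⟩
        refine ⟨fun h => ?_, fun h => ?_⟩ <;> rw [map_mul, det_mul]
        · by_cases haG : a ∈ G
          · rw [ha haG, hb (((hmm a b).mp h).mp haG), one_mul]
          · rw [ha' haG, hb' (fun hbG => haG (((hmm a b).mp h).mpr hbG))]; ring
        · by_cases haG : a ∈ G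
          · rw [ha haG, hb' (fun hbG => h (mul_mem haG hbG)), one_mul]
          · rw [ha' haG, hb (by_contra fun hbG => h ((hmm a b).mpr (iff_of_false haG hbG))),
              mul_one]
      inv_mem' := by
        rintro a ⟨ha, ha'⟩
        have e : (R a⁻¹).det * (R a).det = 1 := by
          rw [← det_mul, ← map_mul, inv_mul_cancel, map_one, det_one]
        refine ⟨fun h => ?_, fun h => ?_⟩
        · rw [ha (by simpa using G.inv_mem h)] at e
          simpa using e
        · rw [ha' (fun h' => h (G.inv_mem h'))] at e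
          linear_combination -e }
  suffices hH : H = ⊤ by
    have hg : g ∈ H := by rw [hH]; exact Subgroup.mem_top g
    exact hg
  refine D.gen H (fun g hg => ⟨fun _ => by rw [hg, det_one],
    fun h => absurd (mem_of_image_eq_one hm hg) h⟩) fun j σ hσ => ?_
  by_cases hj : j ∈ bad
  · obtain ⟨s, hs, hsG⟩ : ∃ s ∈ I j, s ∉ G := by
      refine SetLike.not_le_iff_exists.mp fun hjG => hh₀G ?_
      obtain ⟨g, hg⟩ := D.conj j hj i hi
      simpa [mul_assoc] using hGn.conj_mem _ (hjG (hg h₀ hh₀)) g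
    have hA := det_sub_one_eq_zero hψ hdet hm (D.atP j hj) (fun h => hsG (h hs))
    have hoff : ∀ t ∈ I j, t ∉ G → (R t).det = -1 := fun t ht htG =>
      det_eq_neg_one htr hm htG (hA t ht)
    refine ⟨fun hσG => ?_, hoff σ hσ⟩
    have := hoff (s * σ) (mul_mem hs hσ) fun h => hsG ((G.mul_mem_cancel_right hσG).mp h)
    rw [map_mul, det_mul, hoff s hs hsG] at this
    linear_combination -this
  · have h1 := image_eq_one_of_unipotent hp hψ hm (D.unip j hj σ hσ)
    exact ⟨fun _ => by rw [h1, det_one], fun h => absurd (mem_of_image_eq_one hm h1) h⟩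

omit [Algebra (ZMod p) K] in
theorem not_noStableLine_of_commutes {R : Γ →* Matrix (Fin 2) (Fin 2) (ZMod p)}
    {r : Matrix (Fin 2) (Fin 2) (ZMod p)} (hrr : r * r = 1) (hr1 : r ≠ 1) (hne : r + 1 ≠ 0)
    (hcomm : ∀ g, R g * r = r * R g) : ¬ NoStableLine R := by
  intro hirr
  obtain ⟨w₀, hw₀⟩ : ∃ w, (r + 1) *ᵥ w ≠ 0 := by
    by_contra hc
    push Not at hc
    refine hne (Matrix.ext_of_mulVec_single fun j => ?_)
    rw [hc, zero_mulVec]
  refine hirr ((r + 1) *ᵥ w₀) ⟨hw₀, fun g _ => ?_⟩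
  set u := (r + 1) *ᵥ w₀ with hu
  have hru : r *ᵥ u = u := by
    rw [hu, mulVec_mulVec, mul_add, hrr, mul_one, add_comm]
  have hrg : r *ᵥ (R g *ᵥ u) = R g *ᵥ u := by
    rw [mulVec_mulVec, ← hcomm g, ← mulVec_mulVec, hru]
  generalize R g *ᵥ u = w at hrg
  by_contra hc
  push Not at hc
  have hB : IsUnit (!![u 0, w 0; u 1, w 1] : Matrix (Fin 2) (Fin 2) (ZMod p)).det := by
    rw [isUnit_iff_ne_zero, det_fin_two_of]
    intro h0
    rcases eq_or_ne (u 0) 0 with h | h
    · have hu1 : u 1 ≠ 0 := fun h1 => hw₀ (funext fun i => by fin_cases i <;> simp [h, h1])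
      have : w 0 = 0 :=
        (mul_eq_zero.mp (show w 0 * u 1 = 0 by rw [h] at h0; linear_combination -h0)
          ).resolve_right hu1
      exact hc (w 1 / u 1) (funext fun i => by fin_cases i <;> simp [h, this, hu1])
    · refine hc (w 0 / u 0) (funext fun i => ?_)
      fin_cases i
      · simp [h]
      · simp only [Fin.mk_one, Pi.smul_apply, smul_eq_mul]
        field_simp
        linear_combination h0
  clear_value u
  have hrB : r * !![u 0, w 0; u 1, w 1] = !![u 0, w 0; u 1, w 1] := by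
    have a0 := congrFun hru 0
    have a1 := congrFun hru 1
    have b0 := congrFun hrg 0
    have b1 := congrFun hrg 1
    simp [mulVec, dotProduct, Fin.sum_univ_two] at a0 a1 b0 b1
    ext a b
    fin_cases a <;> fin_cases b <;> simp [Matrix.mul_apply, Fin.sum_univ_two, a0, a1, b0, b1]
  exact hr1 (((isUnit_iff_isUnit_det _).mpr hB).mul_right_cancel (by rw [hrB, one_mul]))

theorem zmod_three_cases : ∀ u : ZMod 3, u = 0 ∨ u = 1 ∨ u = -1 := by decide

/-- At `p = 3`, conjugation changes the reflection at most by a sign. -/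
theorem commute_or_anti (hp3 : p = 3) (hψ : Function.Injective ψ)
    (hdet : ∀ x, (ψ x).det = algebraMap (ZMod p) K x.det)
    (htr : ∀ x, (ψ x).trace = algebraMap (ZMod p) K x.trace) (hG : G.index = 2)
    (hm : IsMonomial (ψ.toMonoidHom.comp R) G) (hsign : ∀ g ∈ G, (R g).det = 1) {h₀ : Γ}
    (hh₀G : h₀ ∉ G) (g : Γ) : R g * R h₀ = R h₀ * R g ∨ R g * R h₀ = -(R h₀ * R g) := by
  classical
  subst hp3
  have hmm := fun a b : Γ => G.mul_mem_iff_of_index_two hG (a := a) (b := b)
  obtain ⟨r0, r1⟩ := hm.anti h₀ hh₀G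
  change ψ (R h₀) 0 0 = 0 at r0
  change ψ (R h₀) 1 1 = 0 at r1
  have hdiag : ∀ g ∈ G, R g * R h₀ = R h₀ * R g ∨ R g * R h₀ = -(R h₀ * R g) := fun g hg => by
    obtain ⟨a, b⟩ := hm.diag g hg
    change ψ (R g) 0 1 = 0 at a
    change ψ (R g) 1 0 = 0 at b
    have hd : ψ (R g) 0 0 * ψ (R g) 1 1 = 1 := by
      have := hdet (R g)
      rw [det_fin_two, a, zero_mul, sub_zero, hsign g hg, map_one] at this
      exact this
    have ht := htr (R g)
    rw [trace_fin_two] at ht
    have h3 : (3 : K) = 0 := by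
      rw [← map_ofNat (algebraMap (ZMod 3) K) 3, show (3 : ZMod 3) = 0 from rfl, map_zero]
    have h4 : ψ (R g) 0 0 * ψ (R g) 0 0 * (ψ (R g) 0 0 * ψ (R g) 0 0) = 1 := by
      rcases zmod_three_cases (R g).trace with e | e | e <;> rw [e] at ht <;>
        simp only [map_zero, map_one, map_neg] at ht <;>
        generalize ψ (R g) 0 0 = x at * <;> generalize ψ (R g) 1 1 = y at *
      · linear_combination (x ^ 2 - 1) * (x * ht - hd)
      · have : (x + 1) * (x + 1) = 0 := by linear_combination x * ht - hd + x * h3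
        rw [eq_neg_of_add_eq_zero_left (mul_self_eq_zero.mp this)]
        ring
      · have : (x - 1) * (x - 1) = 0 := by linear_combination x * ht - hd - x * h3
        rw [sub_eq_zero.mp (mul_self_eq_zero.mp this)]
        ring
    have hsq : ψ (R g) 0 0 * ψ (R g) 0 0 = ψ (R g) 1 1 * ψ (R g) 1 1 := by
      linear_combination (ψ (R g) 1 1 * ψ (R g) 1 1) * h4 -
        ψ (R g) 0 0 * ψ (R g) 0 0 * (ψ (R g) 0 0 * ψ (R g) 1 1 + 1) * hd
    rcases mul_self_eq_mul_self_iff.mp hsq with e | e
    · left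
      refine hψ ?_
      rw [map_mul, map_mul]
      ext u w
      fin_cases u <;> fin_cases w <;>
        simp [Matrix.mul_apply, Fin.sum_univ_two, a, b, r0, r1, e] <;> ring
    · right
      refine hψ ?_
      rw [map_neg, map_mul, map_mul]
      ext u w
      fin_cases u <;> fin_cases w <;>
        simp [Matrix.mul_apply, Fin.sum_univ_two, a, b, r0, r1, e] <;> ring
  by_cases hg : g ∈ G
  · exact hdiag g hg
  · rcases hdiag _ ((hmm g h₀).mpr (iff_of_false hg hh₀G)) with e | e <;> rw [map_mul] at e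
    · left
      exact (isUnit_image R h₀).mul_right_cancel (by rw [e, mul_assoc])
    · right
      exact (isUnit_image R h₀).mul_right_cancel (by rw [e, neg_mul, mul_assoc])

/-- A representation with these local images and no stable line has no stable line over any
extension on any subgroup of index two. -/
theorem not_stableVec_of_index_two (hp : p ≠ 2) (D : LocalData R I bad) (hirr : NoStableLine R)
    (hirrK : NoStableLine (extRep K R)) (hG : G.index = 2) {v : Fin 2 → K} :
    ¬ StableVec (extRep K R) G v := by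
  classical
  intro hv
  obtain ⟨ψ, hψ, hdet, htr, hm⟩ := exists_isMonomial hirrK hG hv
  obtain ⟨i, hi, hiG⟩ : ∃ i ∈ bad, ¬ I i ≤ G := by
    by_contra hc
    push Not at hc
    have hle : ∀ i, I i ≤ G := fun i σ hσ => if hi : i ∈ bad then hc i hi hσ
      else mem_of_image_eq_one hm (image_eq_one_of_unipotent hp hψ hm (D.unip i hi σ hσ))
    rw [D.gen G (fun g => mem_of_image_eq_one hm) hle, Subgroup.index_top] at hG
    omega
  obtain ⟨h₀, hh₀, hh₀G⟩ := SetLike.not_le_iff_exists.mp hiG
  obtain ⟨hp3, hI⟩ := bad_image hp D hψ hdet htr hG hm hi hh₀ hh₀G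
  have hpm := det_eq_sign hp D hψ hdet htr hG hm hi hh₀ hh₀G
  have hsg := commute_or_anti hp3 hψ hdet htr hG hm (fun g => (hpm g).1) hh₀G
  set r := R h₀ with hr
  have hcomm : ∀ g, R g * r = r * R g := by
    let C : Subgroup Γ :=
      { carrier := {g | R g * r = r * R g}
        one_mem' := by simp
        mul_mem' := fun {a b} ha hb => by
          change R (a * b) * r = r * R (a * b)
          rw [map_mul, mul_assoc, hb, ← mul_assoc, ha, mul_assoc]
        inv_mem' := fun {a} ha => by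
          have e1 : R a⁻¹ * R a = 1 := by rw [← map_mul, inv_mul_cancel, map_one]
          have e2 : R a * R a⁻¹ = 1 := by rw [← map_mul, mul_inv_cancel, map_one]
          calc R a⁻¹ * r = R a⁻¹ * r * (R a * R a⁻¹) := by rw [e2, mul_one]
            _ = R a⁻¹ * (r * R a) * R a⁻¹ := by simp only [mul_assoc]
            _ = r * R a⁻¹ := by rw [← ha, ← mul_assoc, e1, one_mul] }
    suffices hC : C = ⊤ by
      intro g
      have hg : g ∈ C := by rw [hC]; exact Subgroup.mem_top g
      exact hg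
    refine D.gen C (fun g hg => by
      change R g * r = r * R g
      rw [hg, one_mul, mul_one]) (fun j σ hσ => ?_)
    change R σ * r = r * R σ
    by_cases hj : j ∈ bad
    · obtain ⟨g, hg⟩ := D.conj i hi j hj
      have eσ : R σ = R g * R (g⁻¹ * σ * g) * R g⁻¹ := by
        rw [← map_mul, ← map_mul]
        congr 1
        group
      have e2 : R g * R g⁻¹ = 1 := by rw [← map_mul, mul_inv_cancel, map_one]
      rcases hI _ (hg σ hσ) with e | e <;> rw [eσ, e]
      · rw [mul_one, e2, one_mul, mul_one]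
      · rcases hsg g with s | s <;> rw [s]
        · rw [mul_assoc r, e2, mul_one]
        · rw [neg_mul, mul_assoc r, e2, mul_one, neg_mul, mul_neg]
    · rw [image_eq_one_of_unipotent hp hψ hm (D.unip j hj σ hσ), one_mul, mul_one]
  have hne1 : r ≠ 1 := fun h => hh₀G (mem_of_image_eq_one hm h)
  have hrr : r * r = 1 := by
    rcases hI (h₀ * h₀) (mul_mem hh₀ hh₀) with e | e <;> rw [map_mul] at e
    · exact e
    · exact absurd ((isUnit_image R h₀).mul_left_cancel (by rw [e, mul_one])) hne1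
  refine not_noStableLine_of_commutes hrr hne1 (fun h => ?_) hcomm hirr
  have := (hpm h₀).2 hh₀G
  rw [← hr, eq_neg_of_add_eq_zero_left h, det_neg, det_one] at this
  simp at this
  exact two_ne_zero_of_ne_two hp (by linear_combination this)

end FLTAgent.GaloisImage
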