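import Mathlib

/-!
# Monomial two-dimensional mod `p` representations

Representations that are monomial on a subgroup of index two (`IsMonomial`), stable lines
(`StableVec`, `NoStableLine`) and their passage to extension fields.  `exists_isMonomial` puts a
representation with a stable line on such a subgroup in monomial form; used in `IndexTwo`.
-/

set_option autoImplicit false

open Matrix

namespace FLTAgent.GaloisImage

variable {Γ : Type} [Group Γ]

section Basic

variable {K : Type} [Field K]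

/-- `v` spans a line stable under the subgroup `G`. -/
def StableVec (M : Γ →* Matrix (Fin 2) (Fin 2) K) (G : Subgroup Γ) (v : Fin 2 → K) : Prop :=
  v ≠ 0 ∧ ∀ g ∈ G, ∃ c : K, M g *ᵥ v = c • v

/-- No line is stable under the whole group. -/
def NoStableLine (M : Γ →* Matrix (Fin 2) (Fin 2) K) : Prop := ∀ v, ¬ StableVec M ⊤ v

/-- Conjugating a representation by a matrix with two-sided inverse. -/
def conjRep (M : Γ →* Matrix (Fin 2) (Fin 2) K) (P Q : Matrix (Fin 2) (Fin 2) K) (hPQ : P * Q = 1)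
    (hQP : Q * P = 1) : Γ →* Matrix (Fin 2) (Fin 2) K where
  toFun g := Q * M g * P
  map_one' := by rw [map_one, mul_one, hQP]
  map_mul' a b := by
    rw [map_mul, show Q * M a * P * (Q * M b * P) = Q * M a * (P * Q) * M b * P by
      simp only [mul_assoc], hPQ, mul_one]
    simp only [mul_assoc]

/-- A representation monomial with respect to `G`: diagonal on `G`, antidiagonal off it. -/
structure IsMonomial (N : Γ →* Matrix (Fin 2) (Fin 2) K) (G : Subgroup Γ) : Prop where
  diag : ∀ g ∈ G, N g 0 1 = 0 ∧ N g 1 0 = 0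
  anti : ∀ g ∉ G, N g 0 0 = 0 ∧ N g 1 1 = 0

variable {N : Γ →* Matrix (Fin 2) (Fin 2) K} {G : Subgroup Γ}

theorem IsMonomial.sq_anti (h : IsMonomial N G) {g : Γ} (hg : g ∉ G) :
    N g * N g = (-(N g).det) • (1 : Matrix (Fin 2) (Fin 2) K) := by
  obtain ⟨h0, h1⟩ := h.anti g hg
  ext i j
  fin_cases i <;> fin_cases j <;>
    simp [Matrix.mul_apply, Fin.sum_univ_two, det_fin_two, h0, h1, mul_comm]

theorem IsMonomial.eq_one_of_unipotent (h : IsMonomial N G) (h2 : (2 : K) ≠ 0) {g : Γ}
    (hu : (N g - 1) * (N g - 1) = 0) : N g = 1 := by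
  have e00 := congrFun (congrFun hu 0) 0
  have e11 := congrFun (congrFun hu 1) 1
  have e01 := congrFun (congrFun hu 0) 1
  simp [Matrix.mul_apply, Fin.sum_univ_two, one_apply] at e00 e11 e01
  by_cases hg : g ∈ G
  · obtain ⟨a, b⟩ := h.diag g hg
    have h0 : N g 0 0 = 1 := by
      rw [a, zero_mul, add_zero] at e00
      exact sub_eq_zero.mp (mul_self_eq_zero.mp e00)
    have h1 : N g 1 1 = 1 := by
      rw [b, zero_mul, zero_add] at e11
      exact sub_eq_zero.mp (mul_self_eq_zero.mp e11)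
    ext i j
    fin_cases i <;> fin_cases j <;> simp [a, b, h0, h1]
  · obtain ⟨a, b⟩ := h.anti g hg
    rw [a, b] at e01
    rw [a] at e00
    have : N g 0 1 = 0 := by
      have : (-2 : K) * N g 0 1 = 0 := by linear_combination e01
      exact (mul_eq_zero.mp this).resolve_left (neg_ne_zero.mpr h2)
    rw [this] at e00
    simp at e00

end Basic

section ModP

variable {p : ℕ} [Fact p.Prime]

/-- The local conditions on the image of the subgroup at a distinguished place. -/
def LocalAtP (R : Γ →* Matrix (Fin 2) (Fin 2) (ZMod p)) (I : Subgroup Γ) : Prop :=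
  (∀ σ ∈ I, (R σ - 1).det = 0) ∨
    ∃ σ ∈ I, (∀ τ ∈ I, ∃ j : ℕ, R τ = R σ ^ j ∨ R τ = -(R σ ^ j)) ∧
      ∀ c : ZMod p, R σ * R σ ≠ c • (1 : Matrix (Fin 2) (Fin 2) (ZMod p))

variable {K : Type} [Field K] [Algebra (ZMod p) K]

/-- The scalar extension of a representation. -/
noncomputable def extRep (K : Type) [Field K] [Algebra (ZMod p) K]
    (R : Γ →* Matrix (Fin 2) (Fin 2) (ZMod p)) : Γ →* Matrix (Fin 2) (Fin 2) K :=
  (algebraMap (ZMod p) K).mapMatrix.toMonoidHom.comp R

theorem two_ne_zero_of_ne_two (hp : p ≠ 2) : (2 : ZMod p) ≠ 0 := fun h => hp <| by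
  rw [show (2 : ZMod p) = ((2 : ℕ) : ZMod p) by norm_num, ZMod.natCast_eq_zero_iff] at h
  exact (Nat.prime_dvd_prime_iff_eq Fact.out Nat.prime_two).mp h

/-- With a reflection in the image, an irreducible representation is absolutely irreducible. -/
theorem noStableLine_extRep {R : Γ →* Matrix (Fin 2) (Fin 2) (ZMod p)} (hp : p ≠ 2)
    (hirr : NoStableLine R) {c : Γ} (hc : R c * R c = 1) (hdet : (R c).det = -1) :
    NoStableLine (extRep K R) := by
  rintro v ⟨hv, hstab⟩
  set φ := algebraMap (ZMod p) K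
  set M := R c with hM
  -- `M` has trace `0`, so its eigenvectors are defined over `𝔽_p`
  have h00 := congrFun (congrFun hc 0) 0
  have h01 := congrFun (congrFun hc 0) 1
  simp [Matrix.mul_apply, Fin.sum_univ_two] at h00 h01
  rw [det_fin_two] at hdet
  have htr : M 1 1 = -M 0 0 := by
    have h2 : (M 0 0 + M 1 1) * M 0 1 = 0 := by linear_combination h01
    rcases mul_eq_zero.mp h2 with h | h
    · linear_combination h
    · rw [h, zero_mul, sub_zero] at hdet
      rw [h, zero_mul, add_zero] at h00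
      rcases mul_self_eq_one_iff.mp h00 with e | e <;> rw [e] at hdet ⊢
      · linear_combination hdet
      · linear_combination -hdet
  obtain ⟨μ, hμ⟩ := hstab c (Subgroup.mem_top c)
  have e0 := congrFun hμ 0
  have e1 := congrFun hμ 1
  simp [extRep, mulVec, dotProduct, Fin.sum_univ_two] at e0 e1
  change φ (M 0 0) * v 0 + φ (M 0 1) * v 1 = μ * v 0 at e0
  change φ (M 1 0) * v 0 + φ (M 1 1) * v 1 = μ * v 1 at e1
  rw [htr, map_neg] at e1
  have hμ2 : μ * μ = 1 := by
    have q : φ (M 0 0) * φ (M 0 0) + φ (M 0 1) * φ (M 1 0) = 1 := by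
      rw [← map_mul, ← map_mul, ← map_add, h00, map_one]
    by_contra hne
    have hne' : μ * μ - 1 ≠ 0 := sub_ne_zero.mpr hne
    refine hv (funext fun i => mul_left_cancel₀ hne' ?_)
    rw [Pi.zero_apply, mul_zero]
    fin_cases i
    · change (μ * μ - 1) * v 0 = 0
      linear_combination v 0 * q - (μ + φ (M 0 0)) * e0 - φ (M 0 1) * e1
    · change (μ * μ - 1) * v 1 = 0
      linear_combination v 1 * q - φ (M 1 0) * e0 - (μ - φ (M 0 0)) * e1
  obtain ⟨ε, rfl⟩ : ∃ ε : ZMod p, φ ε = μ := by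
    rcases mul_self_eq_one_iff.mp hμ2 with e | e
    · exact ⟨1, by rw [e, map_one]⟩
    · exact ⟨-1, by rw [e, map_neg, map_one]⟩
  -- `v` is proportional to a vector with coefficients in `𝔽_p`
  obtain ⟨w, t, hw⟩ : ∃ (w : Fin 2 → ZMod p) (t : K), v = t • (φ ∘ w) := by
    rcases eq_or_ne (M 0 1) 0 with hb | hb
    · rw [hb, map_zero, zero_mul, add_zero] at e0
      by_cases ha : M 0 0 = ε
      · rw [ha] at e1
        refine ⟨![2 * ε, M 1 0], v 0 / φ (2 * ε), ?_⟩
        have hε : φ (2 * ε) ≠ 0 := (_root_.map_ne_zero φ).mpr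
            (mul_ne_zero (two_ne_zero_of_ne_two hp)
          fun h => by rw [h, map_zero, zero_mul] at hμ2; exact zero_ne_one hμ2)
        ext i
        fin_cases i
        · simp only [Fin.zero_eta, Pi.smul_apply, Function.comp_apply, cons_val_zero, smul_eq_mul]
          rw [div_mul_cancel₀ _ hε]
        · simp only [Pi.smul_apply, Function.comp_apply, Fin.mk_one, cons_val_one, cons_val_zero,
            smul_eq_mul]
          rw [div_mul_eq_mul_div, eq_div_iff hε, map_mul, map_ofNat]
          linear_combination -e1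
      · refine ⟨![0, 1], v 1, ?_⟩
        have : v 0 = 0 := (mul_eq_zero.mp (show (φ (M 0 0) - φ ε) * v 0 = 0 by
          linear_combination e0)).resolve_left (sub_ne_zero.mpr (φ.injective.ne ha))
        ext i
        fin_cases i <;> simp [this]
    · refine ⟨![1, (ε - M 0 0) / M 0 1], v 0, ?_⟩
      ext i
      fin_cases i
      · simp
      · simp only [Pi.smul_apply, Function.comp_apply, Fin.mk_one, cons_val_one, cons_val_zero,
          smul_eq_mul, map_div₀, map_sub]
        field_simp [(_root_.map_ne_zero φ).mpr hb]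
        linear_combination e0
  have ht : t ≠ 0 := fun h => hv (by rw [hw, h, zero_smul])
  have hw0 : w ≠ 0 := fun h => hv (by rw [hw, h]; ext i; simp)
  refine hirr w ⟨hw0, fun g _ => ?_⟩
  obtain ⟨d, hd⟩ := hstab g (Subgroup.mem_top g)
  have hd' : φ ∘ (R g *ᵥ w) = d • (φ ∘ w) := by
    rw [hw, mulVec_smul, smul_comm] at hd
    have := smul_right_injective _ ht hd
    rw [← this]
    ext i
    exact RingHom.map_mulVec φ (R g) w i
  obtain ⟨i, hi⟩ := Function.ne_iff.mp hw0
  simp only [Pi.zero_apply] at hi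
  have hdi := congrFun hd' i
  refine ⟨(R g *ᵥ w) i / w i, funext fun j => φ.injective ?_⟩
  have hdj := congrFun hd' j
  simp only [Function.comp_apply, Pi.smul_apply, smul_eq_mul] at hdi hdj
  rw [Pi.smul_apply, smul_eq_mul, map_mul, map_div₀, hdj, hdi,
    mul_div_assoc, div_self ((_root_.map_ne_zero φ).mpr hi), mul_one]

/-- A stable line on a subgroup of index two of a representation without stable lines gives a
monomial form. -/
theorem exists_isMonomial {R : Γ →* Matrix (Fin 2) (Fin 2) (ZMod p)}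
    (hirrK : NoStableLine (extRep K R)) {G : Subgroup Γ} (hG : G.index = 2) {v : Fin 2 → K}
    (hv : StableVec (extRep K R) G v) :
    ∃ ψ : Matrix (Fin 2) (Fin 2) (ZMod p) →+* Matrix (Fin 2) (Fin 2) K,
      Function.Injective ψ ∧ (∀ x, (ψ x).det = algebraMap (ZMod p) K x.det) ∧
      (∀ x, (ψ x).trace = algebraMap (ZMod p) K x.trace) ∧
      IsMonomial (ψ.toMonoidHom.comp R) G := by
  classical
  obtain ⟨hv, hstab⟩ := hv
  set φ := algebraMap (ZMod p) K
  set M := extRep K R with hMdef
  have hGn : G.Normal := Subgroup.normal_of_index_eq_two hG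
  have hmm := fun a b : Γ => G.mul_mem_iff_of_index_two hG (a := a) (b := b)
  obtain ⟨τ, hτ⟩ : ∃ τ, ¬ ∃ c : K, M τ *ᵥ v = c • v := by
    by_contra hc
    push Not at hc
    exact hirrK v ⟨hv, fun g _ => hc g⟩
  have hτG : τ ∉ G := fun h => hτ (hstab τ h)
  set P : Matrix (Fin 2) (Fin 2) K := !![v 0, (M τ *ᵥ v) 0; v 1, (M τ *ᵥ v) 1] with hPdef
  have hP : IsUnit P.det := by
    rw [isUnit_iff_ne_zero, hPdef, det_fin_two_of]
    intro h0
    rcases eq_or_ne (v 0) 0 with h | h
    · have hv1 : v 1 ≠ 0 := fun h1 => hv (funext fun i => by fin_cases i <;> simp [h, h1])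
      have : (M τ *ᵥ v) 0 = 0 :=
        (mul_eq_zero.mp (show (M τ *ᵥ v) 0 * v 1 = 0 by rw [h] at h0; linear_combination -h0)
          ).resolve_right hv1
      exact hτ ⟨(M τ *ᵥ v) 1 / v 1, funext fun i => by
        fin_cases i <;> simp [h, this, hv1]⟩
    · refine hτ ⟨(M τ *ᵥ v) 0 / v 0, funext fun i => ?_⟩
      fin_cases i
      · simp [h]
      · simp only [Fin.mk_one, Pi.smul_apply, smul_eq_mul]
        field_simp
        linear_combination h0
  set N := conjRep M P P⁻¹ (mul_nonsing_inv P hP) (nonsing_inv_mul P hP) with hNdef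
  have hcol0 : P *ᵥ ![1, 0] = v := by
    ext i; fin_cases i <;> simp [hPdef, mulVec, dotProduct]
  have hcol1 : P *ᵥ ![0, 1] = M τ *ᵥ v := by
    ext i; fin_cases i <;> simp [hPdef, mulVec, dotProduct]
  have hN : ∀ g u, N g *ᵥ u = P⁻¹ *ᵥ (M g *ᵥ (P *ᵥ u)) := fun g u => by
    rw [mulVec_mulVec, mulVec_mulVec]; rfl
  have hinv : ∀ u, P⁻¹ *ᵥ (P *ᵥ u) = u := fun u => by
    rw [mulVec_mulVec, nonsing_inv_mul P hP, one_mulVec]
  -- the representation is monomial
  have mem_mul : ∀ g ∉ G, ∀ h ∉ G, g * h ∈ G := fun g hg h hh => (hmm g h).mpr (iff_of_false hg hh)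
  have first : ∀ g ∈ G, ∃ c, N g *ᵥ ![1, 0] = c • (![1, 0] : Fin 2 → K) := fun g hg => by
    obtain ⟨c, hc⟩ := hstab g hg
    exact ⟨c, by rw [hN, hcol0, hc, mulVec_smul, ← hcol0, hinv]⟩
  have hmono : IsMonomial N G := by
    have second : ∀ g ∈ G, ∃ c, N g *ᵥ ![0, 1] = c • (![0, 1] : Fin 2 → K) := fun g hg => by
      obtain ⟨c, hc⟩ := hstab (τ⁻¹ * g * τ) (by simpa using hGn.conj_mem g hg τ⁻¹)
      refine ⟨c, ?_⟩
      rw [hN, hcol1, mulVec_mulVec (M := M g), ← map_mul,
        show g * τ = τ * (τ⁻¹ * g * τ) by group, map_mul, ← mulVec_mulVec, hc, mulVec_smul,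
        mulVec_smul, ← hcol1, hinv]
    have hτ0 : N τ *ᵥ ![1, 0] = ![0, 1] := by rw [hN, hcol0, ← hcol1, hinv]
    have hτ1 : ∃ c : K, N τ *ᵥ ![0, 1] = c • (![1, 0] : Fin 2 → K) := by
      obtain ⟨c, hc⟩ := hstab (τ * τ) (mem_mul τ hτG τ hτG)
      exact ⟨c, by rw [hN, hcol1, mulVec_mulVec (M := M τ), ← map_mul, hc, mulVec_smul,
        ← hcol0, hinv]⟩
    constructor
    · intro g hg
      obtain ⟨c, hc⟩ := first g hg
      obtain ⟨d, hd⟩ := second g hg
      have a := congrFun hd 0
      have b := congrFun hc 1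
      simp [mulVec, dotProduct] at a b
      exact ⟨a, b⟩
    · intro g hg
      obtain ⟨h, hh, rfl⟩ : ∃ h ∈ G, g = τ * h :=
        ⟨τ⁻¹ * g, mem_mul _ (fun h => hτG (by simpa using G.inv_mem h)) g hg, by group⟩
      obtain ⟨c, hc⟩ := first h hh
      obtain ⟨d, hd⟩ := second h hh
      obtain ⟨e, he⟩ := hτ1
      have h0 : N (τ * h) *ᵥ ![1, 0] = c • (![0, 1] : Fin 2 → K) := by
        rw [map_mul, ← mulVec_mulVec, hc, mulVec_smul, hτ0]
      have h1 : N (τ * h) *ᵥ ![0, 1] = (d * e) • (![1, 0] : Fin 2 → K) := by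
        rw [map_mul, ← mulVec_mulVec, hd, mulVec_smul, he, smul_smul]
      have a := congrFun h0 0
      have b := congrFun h1 1
      simp [mulVec, dotProduct, -map_mul] at a b
      exact ⟨a, b⟩
  have hPi : P * P⁻¹ = 1 := mul_nonsing_inv P hP
  have hPi' : P⁻¹ * P = 1 := nonsing_inv_mul P hP
  let ψ : Matrix (Fin 2) (Fin 2) (ZMod p) →+* Matrix (Fin 2) (Fin 2) K :=
    { toFun := fun x => P⁻¹ * φ.mapMatrix x * P
      map_one' := by rw [map_one, mul_one, hPi']
      map_mul' := fun x y => by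
        rw [map_mul, show P⁻¹ * φ.mapMatrix x * P * (P⁻¹ * φ.mapMatrix y * P) =
          P⁻¹ * φ.mapMatrix x * (P * P⁻¹) * φ.mapMatrix y * P
            by simp only [mul_assoc], hPi, mul_one]
        simp only [mul_assoc]
      map_zero' := by rw [map_zero, mul_zero, zero_mul]
      map_add' := fun x y => by rw [map_add, mul_add, add_mul] }
  refine ⟨ψ, (injective_iff_map_eq_zero ψ).mpr ?_, fun x => ?_, fun x => ?_, ?_⟩
  · intro x hx
    have e : φ.mapMatrix x = 0 :=
      calc φ.mapMatrix x = P * (P⁻¹ * φ.mapMatrix x * P) * P⁻¹ := by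
            simp only [mul_assoc, hPi, mul_one]; rw [← mul_assoc, hPi, one_mul]
        _ = 0 := by rw [show P⁻¹ * φ.mapMatrix x * P = 0 from hx, mul_zero, zero_mul]
    exact Matrix.map_injective φ.injective (e.trans (map_zero φ.mapMatrix).symm)
  · change (P⁻¹ * φ.mapMatrix x * P).det = _
    rw [det_mul, det_mul, mul_right_comm, ← det_mul, hPi', det_one, one_mul, RingHom.map_det]
  · change (P⁻¹ * φ.mapMatrix x * P).trace = _
    rw [trace_mul_comm, ← mul_assoc, hPi, one_mul, trace_fin_two, trace_fin_two, map_add]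
    rfl
  · exact hmono

end ModP

end FLTAgent.GaloisImage
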