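import Fermat.Agent.GaloisImage.Det
import Fermat.Agent.Density.Chebotarev
import Fermat.Agent.ModularityLifting.Setup

/-!
# The hypotheses of the Taylor–Wiles step for a semistable curve

`tw_hypothesis`: for the matrices of an irreducible semistable curve the restrictions to index
two subgroups are absolutely irreducible, and for `p = 3` there are primes `t ≡ 2 (mod 3)` with
nonzero Frobenius trace.  Used by the start of
modularity lifting, level lowering and `LowerSquare.Assembly`.
-/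

set_option autoImplicit false

open Matrix WeierstrassCurve WeierstrassCurve.Affine WeierstrassCurve.Affine.Point
open scoped WeierstrassCurve.Affine Pointwise

namespace FLTAgent.GaloisImage

open FLTAgent.Density (Qbar GalQ)
open FLTAgent.DefRing (MatRep AbsGal)
open FLTAgent.ModularityLifting (AbsIrreducibleOn)

/-- Pairwise commuting `2 × 2` matrices over an algebraically closed field have a common
eigenvector. -/
theorem exists_common_eigenvector {K : Type} [Field K] [IsAlgClosed K]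
    (S : Set (Matrix (Fin 2) (Fin 2) K)) (hS : ∀ x ∈ S, ∀ y ∈ S, x * y = y * x) :
    ∃ w : Fin 2 → K, w ≠ 0 ∧ ∀ x ∈ S, ∃ c : K, x *ᵥ w = c • w := by
  by_cases hsc : ∀ x ∈ S, ∀ w : Fin 2 → K, ∃ c : K, x *ᵥ w = c • w
  · exact ⟨Pi.single 0 1, by simp, fun x hx => hsc x hx _⟩
  push Not at hsc
  obtain ⟨g, hg, u, hu⟩ := hsc
  obtain ⟨μ, hμ⟩ := Module.End.exists_eigenvalue (Matrix.toLin' g)
  obtain ⟨w, hw⟩ := hμ.exists_hasEigenvector
  have hgw : g *ᵥ w = μ • w := by simpa using hw.apply_eq_smul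
  refine ⟨w, hw.2, fun h hh => ?_⟩
  by_contra hc
  push Not at hc
  have hgw' : g *ᵥ (h *ᵥ w) = μ • (h *ᵥ w) := by
    rw [mulVec_mulVec, hS g hg h hh, ← mulVec_mulVec, hgw, mulVec_smul]
  -- `w` and `h w` form a basis on which `g` is scalar
  set D : K := w 0 * (h *ᵥ w) 1 - w 1 * (h *ᵥ w) 0 with hD
  have hD0 : D ≠ 0 := by
    intro h0
    rcases eq_or_ne (w 0) 0 with h00 | h00
    · have hw1 : w 1 ≠ 0 := fun h1 => hw.2 (funext fun i => by fin_cases i <;> simp [h00, h1])
      refine hc ((h *ᵥ w) 1 / w 1) (funext fun i => ?_)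
      fin_cases i
      · have : (h *ᵥ w) 0 = 0 := (mul_eq_zero.1 (show w 1 * (h *ᵥ w) 0 = 0 by
          linear_combination -h0 - hD + (h *ᵥ w) 1 * h00)).resolve_left hw1
        simp [h00, this]
      · simp [hw1]
    · refine hc ((h *ᵥ w) 0 / w 0) (funext fun i => ?_)
      fin_cases i
      · simp [h00]
      · show (h *ᵥ w) 1 = (h *ᵥ w) 0 / w 0 * w 1
        field_simp
        linear_combination h0 + hD
  have hu' : u = ((u 0 * (h *ᵥ w) 1 - u 1 * (h *ᵥ w) 0) / D) • w +
      ((u 1 * w 0 - u 0 * w 1) / D) • (h *ᵥ w) := by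
    funext i
    fin_cases i <;>
    · simp only [Fin.zero_eta, Fin.mk_one, Pi.add_apply, Pi.smul_apply, smul_eq_mul]
      field_simp
      rw [hD]; ring
  refine hu μ ?_
  rw [hu', mulVec_add, mulVec_smul, mulVec_smul, hgw, hgw', smul_add, smul_comm μ, smul_comm μ]

variable {p : ℕ} [Fact p.Prime]

/-- The statement over abstract fields, from the one over algebras. -/
theorem absIrreducibleOn_of_not_stableVec {R : MatRep (ZMod p)} {G : Subgroup AbsGal}
    (h : ∀ (K : Type) [Field K] [Algebra (ZMod p) K] (u : Fin 2 → K),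
      ¬ StableVec (extRep K R) G u) : AbsIrreducibleOn R G := by
  intro K _ ι w hw
  let : Algebra (ZMod p) K := ι.toAlgebra
  by_contra hne
  exact h K w ⟨hne, fun σ hσ => hw σ hσ⟩

variable {W : WeierstrassCurve ℤ} (b : Module.Basis (Fin 2) (ZMod p) (Tors W p))

theorem zmod_three_neg_one_ne_one : ¬ (-1 : ZMod 3) = 1 := by decide

/-- At `p = 3` some element has determinant `-1` and nonzero trace. -/
theorem exists_det_neg_one_trace_ne_zero (hp3 : p = 3) (hΔ : W.Δ ≠ 0)
    (hW : W.IsSemistableModel) (hirr : W.ModRepIsIrreducible p) :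
    ∃ σ : GalQ, (matRep W p b σ).det = -1 ∧ (matRep W p b σ).trace ≠ 0 := by
  subst hp3
  by_contra hc
  push Not at hc
  set R := matRep W 3 b
  let φ : GalQ →* ZMod 3 := Matrix.detMonoidHom.comp R
  let u : GalQ →* (ZMod 3)ˣ := φ.toHomUnits
  have hdet : ∀ σ, (R σ).det = 1 ∨ (R σ).det = -1 := fun σ => by
    have h0 : (R σ).det ≠ 0 := ((isUnit_iff_isUnit_det _).mp (isUnit_image R σ)).ne_zero
    exact (zmod_three_cases _).resolve_left h0
  have hcc : (R complexConjugation).det = -1 :=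
    det_matRep_involution b hΔ complexConjugation_mul_self complexConjugation_ne_one
  set G := u.ker with hG
  have hmem : ∀ σ, σ ∈ G ↔ (R σ).det = 1 := fun σ => by
    rw [hG, MonoidHom.mem_ker]
    exact ⟨fun h => congrArg Units.val h, fun h => Units.ext h⟩
  have hcG : complexConjugation ∉ G := fun h => by
    have := (hmem _).1 h
    rw [hcc] at this
    exact zmod_three_neg_one_ne_one this
  have hidx : G.index = 2 := by
    rw [hG, Subgroup.index_ker]
    have hne : u.range ≠ ⊥ := by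
      rw [Ne, MonoidHom.range_eq_bot_iff]
      intro h
      exact hcG (by rw [hG, h]; rfl)
    have h2 : Nat.card (ZMod 3)ˣ = 2 := by
      rw [Nat.card_eq_fintype_card, ZMod.card_units]
    have h3 := Subgroup.card_subgroup_dvd_card u.range
    rw [h2, Nat.dvd_prime Nat.prime_two] at h3
    exact h3.resolve_left fun h => hne (Subgroup.eq_bot_of_card_eq _ h)
  -- elements off `G` are involutions
  have hinv : ∀ σ, σ ∉ G → R σ * R σ = 1 := fun σ hσ => by
    have hd : (R σ).det = -1 := (hdet σ).resolve_left fun h => hσ ((hmem σ).2 h)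
    have ht := hc σ hd
    rw [det_fin_two] at hd
    rw [trace_fin_two] at ht
    ext i j
    fin_cases i <;> fin_cases j <;> simp [Matrix.mul_apply, Fin.sum_univ_two]
    · linear_combination -hd + R σ 0 0 * ht
    · linear_combination R σ 0 1 * ht
    · linear_combination R σ 1 0 * ht
    · linear_combination -hd + R σ 1 1 * ht
  set c := R complexConjugation
  have hcc1 : c * c = 1 := hinv _ hcG
  have hmm := fun x y : GalQ => G.mul_mem_iff_of_index_two hidx (a := x) (b := y)
  have hconj : ∀ g ∈ G, c * R g * c * R g = 1 := fun g hg => by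
    have h := hinv (complexConjugation * g) fun h => hcG (((hmm _ _).mp h).mpr hg)
    rwa [map_mul, ← mul_assoc] at h
  have hc' : ∀ g ∈ G, c * R g * c = R g⁻¹ := fun g hg => by
    have e : R g * R g⁻¹ = 1 := by rw [← map_mul, mul_inv_cancel, map_one]
    calc c * R g * c = c * R g * c * (R g * R g⁻¹) := by rw [e, mul_one]
      _ = R g⁻¹ := by rw [← mul_assoc, hconj g hg, one_mul]
  have hcomm : ∀ g ∈ G, ∀ h ∈ G, R g * R h = R h * R g := by
    intro g hg h hh
    have e : R (g * h)⁻¹ = R (g⁻¹ * h⁻¹) := by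
      rw [map_mul R g⁻¹, ← hc' g hg, ← hc' h hh, ← hc' _ (mul_mem hg hh), map_mul]
      simp only [mul_assoc]
      rw [← mul_assoc c c, hcc1, one_mul]
    have e1 : R (g⁻¹ * h⁻¹) * R (h * g) = 1 := by
      rw [← map_mul, show g⁻¹ * h⁻¹ * (h * g) = 1 by group, map_one]
    have e2 : R (g * h) * R (g⁻¹ * h⁻¹) = 1 := by
      rw [← e, ← map_mul, mul_inv_cancel, map_one]
    rw [← map_mul, ← map_mul]
    calc R (g * h) = R (g * h) * (R (g⁻¹ * h⁻¹) * R (h * g)) := by rw [e1, mul_one]
      _ = R (h * g) := by rw [← mul_assoc, e2, one_mul]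
  obtain ⟨w, hw0, hw⟩ := exists_common_eigenvector
    ((fun g => (R g).map (algebraMap (ZMod 3) (AlgebraicClosure (ZMod 3)))) '' (G : Set GalQ))
    (by
      rintro _ ⟨g, hg, rfl⟩ _ ⟨h, hh, rfl⟩
      rw [← Matrix.map_mul, ← Matrix.map_mul, hcomm g hg h hh])
  exact not_stableVec_matRep b (by decide) hΔ hW hirr (AlgebraicClosure (ZMod 3)) hidx
    ⟨hw0, fun g hg => hw _ ⟨g, hg, rfl⟩⟩

/-- **The Taylor–Wiles hypothesis** for the mod `p` matrices of a semistable curve. -/
theorem tw_hypothesis (hp2 : p ≠ 2) (W : WeierstrassCurve ℤ) (hΔ : W.Δ ≠ 0)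
    (hW : W.IsSemistableModel) (hirr : W.ModRepIsIrreducible p) (ρ : MatRep (ZMod p))
    (b : Module.Basis (Fin 2) (ZMod p) (Tors W p))
    (hb : ∀ σ, ρ σ = LinearMap.toMatrix b b
      (galoisRepModuleEnd ℚ (W.map (Int.castRingHom ℚ)).toAffine p σ)) :
    (∀ G : Subgroup AbsGal, G.index = 2 → AbsIrreducibleOn ρ G) ∧
    (p = 3 → ∀ S : Finset ℕ, ∃ t, t.Prime ∧ t ∉ S ∧ t % 3 = 2 ∧
      ∀ P : ValuationSubring (AlgebraicClosure ℚ), P.LiesOverPrime t → ∀ φ,
        P.IsFrobeniusAt φ t → (ρ φ).trace ≠ 0) := by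
  obtain rfl : ρ = matRep W p b := MonoidHom.ext hb
  refine ⟨fun G hG => absIrreducibleOn_of_not_stableVec fun K _ _ u =>
    not_stableVec_matRep b hp2 hΔ hW hirr K hG, fun hp3 S => ?_⟩
  obtain ⟨σ, hσd, hσt⟩ := exists_det_neg_one_trace_ne_zero b hp3 hΔ hW hirr
  let π : GalQ →* (Matrix (Fin 2) (Fin 2) (ZMod p))ˣ := (matRep W p b).toHomUnits
  have hπ : GaloisFactorsThroughFiniteLevel π := by
    obtain ⟨L, hL, h⟩ := finite_level_matRep (W := W) (p := p) hΔ
    refine ⟨L, hL, fun τ hτ => Units.ext ?_⟩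
    change LinearMap.toMatrix b b _ = 1
    rw [h τ hτ, LinearMap.toMatrix_one]
  obtain ⟨t, ht, htS, A, hA, hI, φ, hφ, he⟩ :=
    (FLTAgent.Density.chebotarev π hπ σ (insert 3 S)).nonempty
  have he' : matRep W p b φ = matRep W p b σ := congrArg Units.val he
  rw [Finset.mem_insert, not_or] at htS
  have htp : ¬ t ∣ p := fun h => by
    rw [hp3, Nat.prime_dvd_prime_iff_eq ht Nat.prime_three] at h
    exact htS.1 h
  refine ⟨t, ht, htS.2, ?_, fun P hP ψ hψ => ?_⟩
  · have hd := det_eq_of_apply_eq_pow b hΔ (m := t) fun ζ hζ =>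
      FLTAgent.Density.isFrobeniusAt_apply_of_pow_eq_one ht hA hφ htp hζ
    rw [he', hσd] at hd
    subst hp3
    have h2 : (t : ZMod 3) = ((2 : ℕ) : ZMod 3) := hd.symm
    rw [ZMod.natCast_eq_natCast_iff] at h2
    exact h2
  · obtain ⟨g, hg⟩ := isConj_iff.1 (FLTAgent.Density.isConj_map_of_isFrobeniusAt ht
      (fun B hB => FLTAgent.Density.forall_inertia_eq_one_of_one_place ht hA hI hB) hA hP hφ hψ)
    have e : matRep W p b ψ = (g : Matrix (Fin 2) (Fin 2) (ZMod p)) * matRep W p b φ *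
        ((g⁻¹ : (Matrix (Fin 2) (Fin 2) (ZMod p))ˣ) : Matrix (Fin 2) (Fin 2) (ZMod p)) :=
      (congrArg Units.val hg).symm
    rw [e, trace_mul_comm, ← mul_assoc, Units.inv_mul, one_mul, he']
    exact hσt

end FLTAgent.GaloisImage
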