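import Fermat.Agent.GaloisImage.AtP
import Mathlib.RingTheory.Polynomial.Cyclotomic.Eval

/-!
# The determinant on inertia at `p`, and local data of a semistable curve

`exists_det_eq`: the determinant is surjective on inertia at `p`.  `localData_matRep` verifies
`LocalData` for a semistable curve, giving `not_stableVec_matRep`: no stable line on subgroups of
index two, in matrix form.
-/

set_option autoImplicit false

open Matrix WeierstrassCurve WeierstrassCurve.Affine WeierstrassCurve.Affine.Point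
open scoped WeierstrassCurve.Affine Pointwise

namespace FLTAgent.GaloisImage

open FLTAgent.Density (Qbar GalQ)
open FLTAgent.ECReduction

variable {W : WeierstrassCurve ℤ} {p : ℕ} [Fact p.Prime]
  {A : ValuationSubring (AlgebraicClosure ℚ)} (b : Module.Basis (Fin 2) (ZMod p) (Tors W p))

local notation "v" => A.valuation

omit [Fact p.Prime] in
/-- Roots of unity are units, and `1 - ζ ^ k` is divisible by `1 - ζ`. -/
theorem val_one_sub_pow_le {ζ : AlgebraicClosure ℚ} {n : ℕ} (hn : n ≠ 0) (hζ : ζ ^ n = 1) (k : ℕ) :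
    v (1 - ζ ^ k) ≤ v (1 - ζ) := by
  have h1 : v ζ ≤ 1 := by
    refine le_of_eq ((pow_eq_one_iff_of_nonneg zero_le hn).1 ?_)
    rw [← map_pow, hζ, map_one]
  rw [← mul_neg_geom_sum ζ k, map_mul]
  exact mul_le_of_le_one_right' (A.valuation.map_sum_le fun i _ => val_pow_le A h1 i)

/-- `p` is, up to a unit, the `(p - 1)`-th power of `1 - ζ`. -/
theorem val_prime_eq_pow {ζ : AlgebraicClosure ℚ} (hζ : IsPrimitiveRoot ζ p) :
    v (p : AlgebraicClosure ℚ) = v (1 - ζ) ^ (p - 1) := by
  have hp : p.Prime := Fact.out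
  have e : (p : AlgebraicClosure ℚ) = ∏ μ ∈ primitiveRoots p (AlgebraicClosure ℚ), (1 - μ) := by
    rw [← Polynomial.eval_one_cyclotomic_prime (R := AlgebraicClosure ℚ) (p := p),
      Polynomial.cyclotomic_eq_prod_X_sub_primitiveRoots hζ, Polynomial.eval_prod]
    simp
  have hv : ∀ μ ∈ primitiveRoots p (AlgebraicClosure ℚ), v (1 - μ) = v (1 - ζ) := fun μ hμ => by
    have hμ' := (mem_primitiveRoots hp.pos).1 hμ
    obtain ⟨i, -, rfl⟩ := hζ.eq_pow_of_pow_eq_one hμ'.pow_eq_one
    obtain ⟨j, -, hj⟩ := hμ'.eq_pow_of_pow_eq_one hζ.pow_eq_one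
    refine le_antisymm (val_one_sub_pow_le hp.ne_zero hζ.pow_eq_one i) ?_
    conv_lhs => rw [← hj]
    exact val_one_sub_pow_le hp.ne_zero hμ'.pow_eq_one j
  rw [e, map_prod, Finset.prod_congr rfl hv, Finset.prod_const, hζ.card_primitiveRoots,
    Nat.totient_prime hp]

/-- Every nonzero determinant occurs in inertia at `p`. -/
theorem exists_det_eq (hΔ : W.Δ ≠ 0) (hA : A.LiesOverPrime p) {a : ZMod p} (ha : a ≠ 0) :
    ∃ σ ∈ A.inertiaSubgroupIn ℚ, (matRep W p b σ).det = a := by
  classical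
  have hp : p.Prime := Fact.out
  have : NeZero (p : AlgebraicClosure ℚ) := ⟨Nat.cast_ne_zero.mpr hp.ne_zero⟩
  obtain ⟨ζ, hζ⟩ := HasEnoughRootsOfUnity.exists_primitiveRoot (AlgebraicClosure ℚ) p
  let f : Polynomial ℚ := Polynomial.X ^ p - 1
  let L : IntermediateField ℚ (AlgebraicClosure ℚ) :=
    IntermediateField.adjoin ℚ (f.rootSet (AlgebraicClosure ℚ))
  have hsf : f.IsSplittingField ℚ L :=
    IntermediateField.adjoin_rootSet_isSplittingField (IsAlgClosed.splits _)
  have : FiniteDimensional ℚ L := Polynomial.IsSplittingField.finiteDimensional L f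
  have : Normal ℚ L := Normal.of_isSplittingField f
  have : IsGalois ℚ L := ⟨⟩
  have hroot : ∀ x, x ∈ f.rootSet (AlgebraicClosure ℚ) ↔ x ^ p = 1 := fun x => by
    rw [Polynomial.mem_rootSet_of_ne
        (by simpa [f] using Polynomial.X_pow_sub_C_ne_zero hp.pos (1 : ℚ))]
    simp [f, sub_eq_zero]
  let s : Finset (ZMod p) :=
    Finset.univ.filter fun c => ∃ σ ∈ A.inertiaSubgroupIn ℚ, (matRep W p b σ).det = c
  have hne : (1 : AlgebraicClosure ℚ) - ζ ≠ 0 := sub_ne_zero.2 (hζ.ne_one hp.one_lt).symm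
  have hle : p - 1 ≤ s.card := by
    refine le_card_of_val_eq_one hp hA L (x := (1 - ζ)⁻¹) (inv_mem (sub_mem (one_mem L)
        (IntermediateField.subset_adjoin ℚ _ ((hroot ζ).2 hζ.pow_eq_one)))) ?_
      (fun σ => (matRep W p b σ).det) s
      (fun σ hσ => Finset.mem_filter.2 ⟨Finset.mem_univ _, σ, hσ, rfl⟩) ?_
    · rw [map_mul, map_pow, map_inv₀, inv_pow, val_prime_eq_pow hζ, mul_inv_cancel₀]
      exact pow_ne_zero _ (A.valuation.ne_zero_iff.2 hne)
    · intro σ _ τ _ h y hy
      induction hy using IntermediateField.adjoin_induction with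
      | mem x hx =>
        rw [apply_eq_pow_det b hΔ σ ((hroot x).1 hx), apply_eq_pow_det b hΔ τ ((hroot x).1 hx), h]
      | algebraMap a => rw [AlgEquiv.commutes, AlgEquiv.commutes]
      | add _ _ _ _ h1 h2 => rw [map_add, map_add, h1, h2]
      | inv _ _ h1 => rw [map_inv₀, map_inv₀, h1]
      | mul _ _ _ _ h1 h2 => rw [map_mul, map_mul, h1, h2]
  have hsub : s ⊆ Finset.univ.erase 0 := fun c hc => by
    obtain ⟨-, σ, -, rfl⟩ := Finset.mem_filter.1 hc
    exact Finset.mem_erase.2
      ⟨((isUnit_iff_isUnit_det _).mp (isUnit_image (matRep W p b) σ)).ne_zero, Finset.mem_univ _⟩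
  have heq := Finset.eq_of_subset_of_card_le hsub (by
    rw [Finset.card_erase_of_mem (Finset.mem_univ _), Finset.card_univ, ZMod.card]; exact hle)
  have hmem : a ∈ s := by rw [heq]; exact Finset.mem_erase.2 ⟨ha, Finset.mem_univ a⟩
  exact (Finset.mem_filter.1 hmem).2

/-- The places over all primes. -/
abbrev Place : Type :=
  {B : ValuationSubring (AlgebraicClosure ℚ) // ∃ q : ℕ, q.Prime ∧ B.LiesOverPrime q}

/-- The local data of a semistable curve. -/
theorem localData_matRep (hp : p ≠ 2) (hΔ : W.Δ ≠ 0) (hW : W.IsSemistableModel) :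
    LocalData (matRep W p b) (fun B : Place => B.1.inertiaSubgroupIn ℚ)
      {B | B.1.LiesOverPrime p} where
  gen H h1 h2 := eq_top_of_inertia b hΔ h1 fun q hq B hB => h2 ⟨B, q, hq, hB⟩
  unip := by
    rintro ⟨B, q, hq, hB⟩ hbad σ hσ
    exact unipotent_of_ne b hp hW hq hB (fun e => hbad (e ▸ hB)) hσ
  atP := fun B hB => localAtP_matRep hp hΔ hW hB b
  det := fun B hB a ha => exists_det_eq b hΔ hB ha
  conj := by
    rintro ⟨B, _⟩ hB ⟨B', _⟩ hB'
    obtain ⟨g, hg⟩ := FLTAgent.Density.exists_smul_eq_of_liesOverPrime Fact.out hB hB'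
    refine ⟨g, fun σ hσ => ?_⟩
    have h := FLTAgent.Density.mem_inertiaSubgroupIn_smul hσ g⁻¹
    rw [inv_inv] at h
    subst hg
    rw [inv_smul_smul] at h
    exact h

/-- No stable line on any subgroup of index two, over any extension. -/
theorem not_stableVec_matRep (hp : p ≠ 2) (hΔ : W.Δ ≠ 0) (hW : W.IsSemistableModel)
    (hirr : W.ModRepIsIrreducible p) (K : Type) [Field K] [Algebra (ZMod p) K]
    {G : Subgroup GalQ} (hG : G.index = 2) {u : Fin 2 → K} :
    ¬ StableVec (extRep K (matRep W p b)) G u :=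
  not_stableVec_of_index_two hp (localData_matRep b hp hΔ hW) (noStableLine_matRep b hirr)
    (noStableLine_extRep_matRep b hΔ hp hirr K) hG

/-- The action on the torsion factors through a finite level. -/
theorem finite_level_matRep (hΔ : W.Δ ≠ 0) :
    GaloisFactorsThroughFiniteLevel
      (galoisRepModuleEnd (K := AlgebraicClosure ℚ) ℚ (W.map (Int.castRingHom ℚ)).toAffine p) := by
  have := isElliptic_qbar hΔ
  have := FLTAgent.ECTorsion.finite_torsionBy (W.map (Int.castRingHom ℚ)).toAffine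
    (K := AlgebraicClosure ℚ) (Nat.cast_ne_zero.mpr (Fact.out : p.Prime).ne_zero)
  obtain ⟨E, hE, h⟩ := FLTAgent.ECTorsion.exists_fixingSubgroup_smul_eq (S := ℚ)
    (K := AlgebraicClosure ℚ) (W.map (Int.castRingHom ℚ)).toAffine (n := p)
  exact ⟨E, hE, fun σ hσ => LinearMap.ext fun x =>
    h σ ((IntermediateField.mem_fixingSubgroup_iff _ _).mpr hσ) x⟩

end FLTAgent.GaloisImage
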