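import Fermat.Agent.GaloisImage.Rep
import Fermat.Agent.ECReduction.FreyReducible
import Fermat.Agent.ECTorsion.TorsionReduction
import Fermat.Agent.ConductorMatch.NodeExists
import Fermat.Agent.Deuring.Archimedean

/-!
# Inertia on the `p`-torsion of a semistable integral Weierstrass curve

Inertia moves points into `E₀` and points of `E₀` into `E₁`.  Consequently the matrices of
inertia away from `p` are unipotent, and those at `p` fix a line unless all torsion reduces to
zero (`exists_line_of_ne_top`).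
-/

set_option autoImplicit false

open Matrix WeierstrassCurve WeierstrassCurve.Affine WeierstrassCurve.Affine.Point
open scoped WeierstrassCurve.Affine

namespace FLTAgent.GaloisImage

open FLTAgent.Density (Qbar GalQ)
open FLTAgent.ECReduction

/-- The curve over `ℚbar`. -/
noncomputable abbrev EK (W : WeierstrassCurve ℤ) : WeierstrassCurve.Affine (AlgebraicClosure ℚ) :=
  (W.map (Int.castRingHom ℚ)).toAffine⁄(AlgebraicClosure ℚ)

variable (W : WeierstrassCurve ℤ) {p : ℕ} {A : ValuationSubring (AlgebraicClosure ℚ)}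

local notation "v" => A.valuation

theorem map_castQbar : (EK W) = W.map (Int.castRingHom (AlgebraicClosure ℚ)) := by
  change (W.map (Int.castRingHom ℚ)).map (algebraMap ℚ (AlgebraicClosure ℚ)) = _
  rw [WeierstrassCurve.map_map]
  exact congrArg W.map (RingHom.ext_int _ _)

theorem intAt : IntAt A (EK W) := by
  rw [map_castQbar]
  constructor <;> exact val_intCast_le A _

theorem coe_smul_tors (σ : GalQ) (z : Tors W p) :
    ((σ • z : Tors W p) : (EK W).Point) = σ • (z : (EK W).Point) := rfl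

theorem nsmul_tors (z : Tors W p) : p • (z : (EK W).Point) = 0 := by
  rw [← natCast_zsmul]
  exact (Submodule.mem_torsionBy_iff _ _).mp z.2

variable [Fact p.Prime] (A)

/-- The torsion points with nonsingular reduction. -/
noncomputable def torE0 : Submodule (ZMod p) (Tors W p) :=
  AddSubgroup.toZModSubmodule p
    (AddSubgroup.comap (Tors W p).subtype.toAddMonoidHom (E0 (intAt W (A := A))))

/-- The torsion points reducing to the point at infinity. -/
noncomputable def torE1 : Submodule (ZMod p) (Tors W p) :=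
  AddSubgroup.toZModSubmodule p
    (AddSubgroup.comap (Tors W p).subtype.toAddMonoidHom (E1 (intAt W (A := A))))

variable {W A}

theorem mem_torE0 {z : Tors W p} : z ∈ torE0 W A ↔ InE0 A (EK W) (z : (EK W).Point) :=
  ⟨fun h => h, fun h => h⟩

theorem mem_torE1 {z : Tors W p} : z ∈ torE1 W A ↔ InE1 A (EK W) (z : (EK W).Point) :=
  ⟨fun h => h, fun h => h⟩

/-- Inertia moves a point of `E₀` inside `E₁`. -/
theorem smul_sub_mem_torE1 {σ : GalQ} (hσ : InertiaElt A σ) {z : Tors W p}
    (hz : z ∈ torE0 W A) : σ • z - z ∈ torE1 W A := by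
  rw [mem_torE1, AddSubgroupClass.coe_sub, coe_smul_tors]
  rw [mem_torE0] at hz
  rcases hze : (z : (EK W).Point) with _ | ⟨x, y, h⟩
  · exact trivial
  rw [hze] at hz
  by_cases hx : v x ≤ 1
  · rcases smul_sub_of_inE0 (W₀ := (W.map (Int.castRingHom ℚ)).toAffine) (intAt W) hσ (h := h)
      hz hx with h0 | ⟨x', y', h', e, hbig⟩
    · rw [h0]; exact trivial
    · rw [e]; exact hbig
  · rw [not_le] at hx
    rw [sub_eq_add_neg]
    refine InE1.add (intAt W) ?_ (InE1.neg (inE1_some.2 hx))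
    rw [smul_some, inE1_some, hσ.val_map]
    exact hx

variable {ℓ : ℕ}

omit [Fact p.Prime] in
/-- There are no singular residues at a prime of good reduction. -/
theorem not_resSingular_of_good (hℓ : ℓ.Prime) (hA : A.LiesOverPrime ℓ) (hbad : ¬ (ℓ : ℤ) ∣ W.Δ)
    {x y : AlgebraicClosure ℚ} (h : (EK W).Nonsingular x y) : ¬ ResSingular A (EK W) x y := by
  have : Fact ℓ.Prime := ⟨hℓ⟩
  let W₁ : WeierstrassCurve A := W.map (Int.castRingHom A)
  have : W₁.IsElliptic := ⟨by
    rw [WeierstrassCurve.map_Δ]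
    exact FLTAgent.Deuring.isUnit_intCast_of_not_dvd hA hbad⟩
  have hW₁ : W₁.map A.subtype = EK W := by
    rw [map_castQbar, WeierstrassCurve.map_map]
    exact congrArg W.map (RingHom.ext_int _ _)
  have key : ∀ (V : WeierstrassCurve (AlgebraicClosure ℚ)), W₁.map A.subtype = V →
      ∀ a c : A, V.toAffine.Nonsingular (a : AlgebraicClosure ℚ) c →
      ¬ ResSingular A V (a : AlgebraicClosure ℚ) c := by
    rintro _ rfl a c h'
    exact ECTorsion.Red.not_resSingular (W₁ := W₁) h'
  intro hs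
  obtain ⟨hx, hy, -, -⟩ := id hs
  exact key (EK W) hW₁ ⟨x, (val_le_iff A).1 hx⟩ ⟨y, (val_le_iff A).1 hy⟩ h hs

/-- At a prime of semistable reduction inertia moves odd torsion inside `E₀`. -/
theorem smul_sub_mem_torE0 (hp : p ≠ 2) (hss : (ℓ : ℤ) ∣ W.Δ → ¬ (ℓ : ℤ) ∣ W.c₄)
    (hℓ : ℓ.Prime) (hA : A.LiesOverPrime ℓ) {σ : GalQ} (hσ : InertiaElt A σ) (z : Tors W p) :
    σ • z - z ∈ torE0 W A := by
  rw [mem_torE0, AddSubgroupClass.coe_sub, coe_smul_tors]
  by_cases hbad : (ℓ : ℤ) ∣ W.Δ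
  · have hc4 := hss hbad
    obtain ⟨nd⟩ := ConductorMatch.nonempty_nodeData (W := (EK W)) (A := A) two_ne_zero three_ne_zero
      (intAt W) (by rw [map_castQbar, WeierstrassCurve.map_Δ]; exact val_int_lt hA hbad)
      (by rw [map_castQbar, WeierstrassCurve.map_c₄]; exact val_int_eq_one hℓ hA hc4)
    exact smul_sub_inE0 (W₀ := (W.map (Int.castRingHom ℚ)).toAffine) (intAt W) nd hσ
      ((Fact.out : p.Prime).odd_of_ne_two hp) (nsmul_tors W z)
  · rcases σ • (z : (EK W).Point) - z with _ | ⟨x, y, h⟩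
    · exact trivial
    · rw [inE0_some]
      exact not_resSingular_of_good hℓ hA hbad h

/-- Torsion prime to the residue characteristic does not reduce to the origin. -/
theorem torE1_eq_bot (hp : p ≠ 2) (hvp : v (p : Qbar) = 1) : torE1 (p := p) W A = ⊥ := by
  rw [Submodule.eq_bot_iff]
  intro z hz
  rw [mem_torE1] at hz
  rcases hze : (z : (EK W).Point) with _ | ⟨x, y, h⟩
  · exact Subtype.ext hze
  · rw [hze, inE1_some] at hz
    refine absurd hz (not_lt.2 (val_x_le_of_torsion (intAt W) hvp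
      ((Fact.out : p.Prime).odd_of_ne_two hp) (fun _ _ h' hP => ?_) (h := h) ?_))
    · exact (FLTAgent.ECTorsion.preΨ'_eval_eq_zero_iff h'
        ((Fact.out : p.Prime).odd_of_ne_two hp)).1 hP
    · rw [← hze]; exact nsmul_tors W z

variable (b : Module.Basis (Fin 2) (ZMod p) (Tors W p))

theorem matRep_sub_one_mulVec (σ : GalQ) (z : Tors W p) :
    (matRep W p b σ - 1) *ᵥ ⇑(b.repr z) = ⇑(b.repr (σ • z - z)) := by
  rw [sub_mulVec, one_mulVec, matRep_mulVec, map_sub]
  rfl

/-- If `σ - 1` takes values in a proper subspace it is singular. -/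
theorem det_sub_one_eq_zero_of_mem {σ : GalQ} {U : Submodule (ZMod p) (Tors W p)} (hU : U ≠ ⊤)
    (h : ∀ z, σ • z - z ∈ U) : (matRep W p b σ - 1).det = 0 := by
  by_contra hdet
  refine hU (eq_top_iff.2 fun z _ => ?_)
  have hu : IsUnit (matRep W p b σ - 1).det := isUnit_iff_ne_zero.2 hdet
  have e := matRep_sub_one_mulVec b σ
    (b.equivFun.symm ((matRep W p b σ - 1)⁻¹ *ᵥ ⇑(b.repr z)))
  have hr : ⇑(b.repr (b.equivFun.symm ((matRep W p b σ - 1)⁻¹ *ᵥ ⇑(b.repr z)))) =
      (matRep W p b σ - 1)⁻¹ *ᵥ ⇑(b.repr z) := b.equivFun.apply_symm_apply _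
  rw [hr, mulVec_mulVec, mul_nonsing_inv _ hu, one_mulVec] at e
  rw [b.repr.injective (DFunLike.coe_injective e)]
  exact h _

/-- Inertia away from `p` is unipotent. -/
theorem unipotent_of_ne (hp : p ≠ 2) (hW : W.IsSemistableModel) (hℓ : ℓ.Prime)
    (hA : A.LiesOverPrime ℓ) (hℓp : ℓ ≠ p) {σ : GalQ} (hσ : σ ∈ A.inertiaSubgroupIn ℚ) :
    (matRep W p b σ - 1) * (matRep W p b σ - 1) = 0 := by
  have hi := inertiaElt_of_mem hσ
  have hvp : v (p : Qbar) = 1 := val_nat_eq_one hℓ hA fun h =>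
    hℓp ((Nat.prime_dvd_prime_iff_eq hℓ Fact.out).1 h)
  refine ext_of_mulVec_single fun j => ?_
  have e : ⇑(b.repr (b j)) = Pi.single j (1 : ZMod p) := by
    rw [b.repr_self]; exact Finsupp.single_eq_pi_single j 1
  rw [zero_mulVec, ← mulVec_mulVec, ← e, matRep_sub_one_mulVec, matRep_sub_one_mulVec]
  have h1 := smul_sub_mem_torE1 hi (smul_sub_mem_torE0 hp (hW ℓ hℓ) hℓ hA hi (b j))
  rw [torE1_eq_bot hp hvp, Submodule.mem_bot] at h1
  rw [h1, _root_.map_zero, Finsupp.coe_zero]

/-- At `p`, unless all the torsion reduces to the origin, every inertia element has the eigenvalue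
`1`. -/
theorem det_sub_one_of_ne_top (hp : p ≠ 2) (hW : W.IsSemistableModel) (hℓ : ℓ.Prime)
    (hA : A.LiesOverPrime ℓ) (h1 : torE1 (p := p) W A ≠ ⊤) {σ : GalQ}
    (hσ : σ ∈ A.inertiaSubgroupIn ℚ) : (matRep W p b σ - 1).det = 0 := by
  have hi := inertiaElt_of_mem hσ
  by_cases h0 : torE0 (p := p) W A = ⊤
  · exact det_sub_one_eq_zero_of_mem b h1 fun z =>
      smul_sub_mem_torE1 hi (h0.symm ▸ Submodule.mem_top)
  · exact det_sub_one_eq_zero_of_mem b h0 (smul_sub_mem_torE0 hp (hW ℓ hℓ) hℓ hA hi)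

/-- At `p`, unless all the torsion reduces to the origin, some line carries the determinant and
has trivial quotient. -/
theorem exists_line_of_ne_top (hp : p ≠ 2) (_hΔ : W.Δ ≠ 0) (hW : W.IsSemistableModel) (hℓ : ℓ.Prime)
    (hA : A.LiesOverPrime ℓ) (h1 : torE1 (p := p) W A ≠ ⊤) :
    ∃ w : Fin 2 → ZMod p, w ≠ 0 ∧ ∀ σ ∈ A.inertiaSubgroupIn ℚ,
      matRep W p b σ *ᵥ w = (matRep W p b σ).det • w ∧
        ∀ u : Fin 2 → ZMod p, ∃ c : ZMod p, matRep W p b σ *ᵥ u - u = c • w := by
  obtain ⟨U, hU, hmem⟩ : ∃ U : Submodule (ZMod p) (Tors W p), U ≠ ⊤ ∧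
      ∀ σ ∈ A.inertiaSubgroupIn ℚ, ∀ z, σ • z - z ∈ U := by
    by_cases h0 : torE0 (p := p) W A = ⊤
    · exact ⟨_, h1, fun σ hσ z =>
        smul_sub_mem_torE1 (inertiaElt_of_mem hσ) (h0.symm ▸ Submodule.mem_top)⟩
    · exact ⟨_, h0, fun σ hσ => smul_sub_mem_torE0 hp (hW ℓ hℓ) hℓ hA (inertiaElt_of_mem hσ)⟩
  have : Module.Finite (ZMod p) (Tors W p) := Module.Finite.of_basis b
  obtain ⟨w₀, hw0, hspan⟩ : ∃ w₀ : Tors W p, w₀ ≠ 0 ∧ ∀ z ∈ U, ∃ c : ZMod p, z = c • w₀ := by
    by_cases hb : U = ⊥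
    · exact ⟨b 0, b.ne_zero 0, fun z hz => ⟨0, by rw [hb, Submodule.mem_bot] at hz; simp [hz]⟩⟩
    obtain ⟨w₀, hw₀U, hw₀⟩ := Submodule.exists_mem_ne_zero_of_ne_bot hb
    refine ⟨w₀, hw₀, fun z hz => ?_⟩
    have hfin := Submodule.finrank_lt hU
    rw [Module.finrank_eq_card_basis b, Fintype.card_fin] at hfin
    have hle : Submodule.span (ZMod p) {w₀} ≤ U :=
      (Submodule.span_singleton_le_iff_mem _ _).2 hw₀U
    have heq := Submodule.eq_of_le_of_finrank_le hle (by rw [finrank_span_singleton hw₀]; omega)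
    obtain ⟨c, hc⟩ := Submodule.mem_span_singleton.1 (heq.symm ▸ hz)
    exact ⟨c, hc.symm⟩
  set w : Fin 2 → ZMod p := ⇑(b.repr w₀) with hw
  have hwne : w ≠ 0 := fun h => hw0 (b.repr.injective (DFunLike.coe_injective (by
    rw [_root_.map_zero]; exact h)))
  refine ⟨w, hwne, fun σ hσ => ?_⟩
  have hquot : ∀ u : Fin 2 → ZMod p, ∃ c : ZMod p, matRep W p b σ *ᵥ u - u = c • w := by
    intro u
    obtain ⟨c, hc⟩ := hspan _ (hmem σ hσ (b.equivFun.symm u))
    refine ⟨c, ?_⟩
    have e := matRep_sub_one_mulVec b σ (b.equivFun.symm u)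
    rw [hc, map_smul, Finsupp.coe_smul, sub_mulVec, one_mulVec,
      show ⇑(b.repr (b.equivFun.symm u)) = u from b.equivFun.apply_symm_apply u] at e
    exact e
  refine ⟨?_, hquot⟩
  -- with a basis `w`, `u` the matrix is triangular with second diagonal entry `1`
  obtain ⟨c, hc⟩ := hquot w
  obtain ⟨a, ha⟩ : ∃ a : ZMod p, matRep W p b σ *ᵥ w = a • w :=
    ⟨c + 1, by rw [add_smul, one_smul, ← hc, sub_add_cancel]⟩
  suffices hd : a = (matRep W p b σ).det by rw [ha, hd]
  set M := matRep W p b σ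
  obtain ⟨c0, hc0⟩ := hquot (Pi.single 0 1)
  obtain ⟨c1, hc1⟩ := hquot (Pi.single 1 1)
  have e00 : M 0 0 = 1 + c0 * w 0 := by
    have := congrFun hc0 0; simp at this; linear_combination this
  have e10 : M 1 0 = c0 * w 1 := by
    have := congrFun hc0 1; simp at this; linear_combination this
  have e01 : M 0 1 = c1 * w 0 := by
    have := congrFun hc1 0; simp at this; linear_combination this
  have e11 : M 1 1 = 1 + c1 * w 1 := by
    have := congrFun hc1 1; simp at this; linear_combination this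
  have hk : ∀ j : Fin 2, a * w j = M.det * w j := by
    intro j
    have := congrFun ha j
    rw [det_fin_two, e00, e01, e10, e11]
    fin_cases j <;> simp [mulVec, dotProduct, Fin.sum_univ_two, e00, e01, e10, e11] at this ⊢ <;>
      first
        | linear_combination -this
        | (by_cases h0 : w 0 = 0
           · exact Or.inr h0
           · exact Or.inl (mul_right_cancel₀ h0 (by linear_combination -this)))
        | (by_cases h0 : w 1 = 0
           · exact Or.inr h0
           · exact Or.inl (mul_right_cancel₀ h0 (by linear_combination -this)))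
  obtain ⟨j, hj⟩ := Function.ne_iff.1 hwne
  exact mul_right_cancel₀ hj (hk j)

end FLTAgent.GaloisImage
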